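import Fermat.Agent.Lib.TorsionCard.Basic

/-!
# The 5-torsion of a Weierstrass curve over any field with `15 ≠ 0` has at most 25 points

Mathlib only (plus the duplication formula of `Lib.TorsionCard.Basic`).  No assumption on the
characteristic beyond `(15 : F) ≠ 0`, no algebraic closedness, any Weierstrass equation.

Proof: a nonzero `P` with `5 • P = 0` has `4 • P = -P`, so `x(2 • (2 • P)) = x(P)`; two uses of the
duplication formula show that `x(P)` is a root of one explicit polynomial of degree `16` with leading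
coefficient `15`.  Hence at most `33` points; a finite group of exponent `5` has `5`-power order.
-/

set_option autoImplicit false
set_option linter.unusedSectionVars false

namespace Fermat.Agent.S52.TorsFive

open Polynomial WeierstrassCurve WeierstrassCurve.Affine
open Fermat.Agent.Lib.TorsionCard

variable {F : Type*} [Field F] (W : WeierstrassCurve.Affine F)

/-- `4 x³ + b₂ x² + 2 b₄ x + b₆`. -/
noncomputable def polB : F[X] :=
  C 4 * X ^ 3 + C W.b₂ * X ^ 2 + C (2 * W.b₄) * X + C W.b₆

/-- `x⁴ - b₄ x² - 2 b₆ x - b₈`. -/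
noncomputable def polN : F[X] :=
  X ^ 4 - C W.b₄ * X ^ 2 - C (2 * W.b₆) * X - C W.b₈

/-- The polynomial (a multiple of `ψ₃ ψ₅`) vanishing at the `x`-coordinates of `5`-torsion points. -/
noncomputable def polG : F[X] :=
  X * polB W * (C 4 * polN W ^ 3 + C W.b₂ * polN W ^ 2 * polB W
      + C (2 * W.b₄) * polN W * polB W ^ 2 + C W.b₆ * polB W ^ 3)
    - (polN W ^ 4 - C W.b₄ * polN W ^ 2 * polB W ^ 2
      - C (2 * W.b₆) * polN W * polB W ^ 3 - C W.b₈ * polB W ^ 4)

lemma polB_eval (x : F) :
    (polB W).eval x = 4 * x ^ 3 + W.b₂ * x ^ 2 + 2 * W.b₄ * x + W.b₆ := by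
  simp [polB]

lemma polN_eval (x : F) :
    (polN W).eval x = x ^ 4 - W.b₄ * x ^ 2 - 2 * W.b₆ * x - W.b₈ := by
  simp [polN]

lemma polG_natDegree (h15 : (15 : F) ≠ 0) : (polG W).natDegree = 16 := by
  unfold polG polB polN
  compute_degree!

lemma polG_ne_zero (h15 : (15 : F) ≠ 0) : polG W ≠ 0 := by
  intro h
  have := polG_natDegree W h15
  rw [h, natDegree_zero] at this
  exact absurd this (by norm_num)

lemma polG_eval (x : F) :
    (polG W).eval x =
      x * (polB W).eval x * (4 * (polN W).eval x ^ 3 + W.b₂ * (polN W).eval x ^ 2 * (polB W).eval x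
        + 2 * W.b₄ * (polN W).eval x * (polB W).eval x ^ 2 + W.b₆ * (polB W).eval x ^ 3)
      - ((polN W).eval x ^ 4 - W.b₄ * (polN W).eval x ^ 2 * (polB W).eval x ^ 2
        - 2 * W.b₆ * (polN W).eval x * (polB W).eval x ^ 3 - W.b₈ * (polB W).eval x ^ 4) := by
  simp [polG]

variable {W}
variable [DecidableEq F]

/-- A point which is not killed by `2` has `B(x) ≠ 0`. -/
lemma polB_eval_ne_zero {x y : F} (h : W.Nonsingular x y)
    (h2 : 2 • Point.some x y h ≠ 0) : (polB W).eval x ≠ 0 := by
  intro h0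
  apply h2
  have heq := (W.equation_iff x y).mp h.1
  have hB : (polB W).eval x = (y - W.negY x y) ^ 2 := by
    rw [polB_eval]
    simp only [WeierstrassCurve.b₂, WeierstrassCurve.b₄, WeierstrassCurve.b₆, negY]
    linear_combination (-4 : F) * heq
  rw [hB] at h0
  have hy : y = W.negY x y := sub_eq_zero.mp (pow_eq_zero_iff (two_ne_zero) |>.mp h0)
  rw [two_nsmul]
  exact Point.add_self_of_Y_eq hy

/-- Duplication on `x`-coordinates, in terms of `polB`, `polN`. -/
lemma hasXc_two_nsmul' {P : W.Point} {x : F} (hP : HasXc W P x) (h2 : 2 • P ≠ 0) :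
    ∃ x' : F, HasXc W (2 • P) x' ∧ x' * (polB W).eval x = (polN W).eval x := by
  obtain ⟨y, hy, rfl⟩ := hP
  have hB := polB_eval_ne_zero hy h2
  rw [polB_eval] at hB
  obtain ⟨x', h1, h2'⟩ := hasXc_two_nsmul (hasXc_some hy) hB
  exact ⟨x', h1, by rw [polB_eval, polN_eval]; exact h2'⟩

/-- The `x`-coordinate of a nonzero `5`-torsion point is a root of `polG`. -/
theorem isRoot_polG_of_five_nsmul {P : W.Point} (hP0 : P ≠ 0) (h5 : 5 • P = 0) :
    ∃ x : F, HasXc W P x ∧ (polG W).IsRoot x := by
  obtain ⟨x, hx⟩ := exists_hasXc_of_ne_zero hP0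
  have h4 : 2 • (2 • P) = -P := by
    have : 2 • (2 • P) + P = 5 • P := by
      rw [← mul_nsmul]; nth_rewrite 2 [← one_nsmul P]; rw [← add_nsmul]
    rw [h5] at this
    exact eq_neg_of_add_eq_zero_left this
  have h2P : 2 • P ≠ 0 := by
    intro h
    rw [h, nsmul_zero] at h4
    exact hP0 (neg_eq_zero.mp h4.symm)
  have h4P : 2 • (2 • P) ≠ 0 := by
    rw [h4]; exact neg_ne_zero.mpr hP0
  obtain ⟨x', hx', e1⟩ := hasXc_two_nsmul' hx h2P
  obtain ⟨x'', hx'', e2⟩ := hasXc_two_nsmul' hx' h4P
  rw [h4] at hx''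
  have hxx : x'' = x := hx''.unique hx.neg
  rw [hxx] at e2
  refine ⟨x, hx, ?_⟩
  rw [IsRoot, polG_eval, ← e1]
  rw [polB_eval, polN_eval] at e2
  linear_combination ((polB W).eval x) ^ 4 * e2

/-- The points with a given `x`-coordinate: at most two. -/
lemma finite_hasXc (x : F) : {P : W.Point | HasXc W P x}.Finite ∧
    {P : W.Point | HasXc W P x}.ncard ≤ 2 := by
  by_cases hne : ∃ Q : W.Point, HasXc W Q x
  · obtain ⟨Q, hQ⟩ := hne
    have hsub : {P : W.Point | HasXc W P x} ⊆ {Q, -Q} := by
      intro P hP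
      rcases HasXc.eq_or_eq_neg hP hQ with h | h
      · exact Or.inl h
      · exact Or.inr h
    refine ⟨(Set.toFinite {Q, -Q}).subset hsub, ?_⟩
    calc {P : W.Point | HasXc W P x}.ncard ≤ ({Q, -Q} : Set W.Point).ncard :=
          Set.ncard_le_ncard hsub (Set.toFinite _)
      _ ≤ ({-Q} : Set W.Point).ncard + 1 := Set.ncard_insert_le Q {-Q}
      _ = 2 := by rw [Set.ncard_singleton]
  · have : {P : W.Point | HasXc W P x} = ∅ := by
      ext P
      constructor
      · exact fun hP => (hne ⟨P, hP⟩).elim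
      · exact fun hP => hP.elim
    rw [this]
    exact ⟨Set.finite_empty, by simp⟩

variable (W)

/-- The set of `5`-torsion points is contained in `{0}` together with the points whose
`x`-coordinate is a root of `polG`. -/
lemma torsion_subset (h15 : (15 : F) ≠ 0) :
    {P : W.Point | 5 • P = 0} ⊆
      insert 0 (⋃ x ∈ (polG W).roots.toFinset, {P : W.Point | HasXc W P x}) := by
  intro P hP
  by_cases hP0 : P = 0
  · exact Or.inl hP0
  · right
    obtain ⟨x, hx, hroot⟩ := isRoot_polG_of_five_nsmul hP0 hP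
    refine Set.mem_biUnion (x := x) ?_ hx
    simp only [Finset.mem_coe, Multiset.mem_toFinset]
    exact (mem_roots (polG_ne_zero W h15)).mpr hroot

/-- The `5`-torsion of a Weierstrass curve over a field with `15 ≠ 0` is finite. -/
theorem finite_torsion_five (h15 : (15 : F) ≠ 0) : {P : W.Point | 5 • P = 0}.Finite := by
  refine Set.Finite.subset (Set.Finite.insert 0 ?_) (torsion_subset W h15)
  exact Set.Finite.biUnion (Finset.finite_toSet _) fun x _ => (finite_hasXc x).1

/-- Crude bound: at most `33` points. -/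
lemma ncard_torsion_five_le_33 (h15 : (15 : F) ≠ 0) : {P : W.Point | 5 • P = 0}.ncard ≤ 33 := by
  have hfin : (⋃ x ∈ (polG W).roots.toFinset, {P : W.Point | HasXc W P x}).Finite :=
    Set.Finite.biUnion (Finset.finite_toSet _) fun x _ => (finite_hasXc x).1
  have h1 : (⋃ x ∈ (polG W).roots.toFinset, {P : W.Point | HasXc W P x}).ncard ≤ 32 := by
    calc (⋃ x ∈ (polG W).roots.toFinset, {P : W.Point | HasXc W P x}).ncard
        ≤ ∑ x ∈ (polG W).roots.toFinset, {P : W.Point | HasXc W P x}.ncard :=
          Finset.set_ncard_biUnion_le _ _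
      _ ≤ ∑ _x ∈ (polG W).roots.toFinset, 2 := Finset.sum_le_sum fun x _ => (finite_hasXc x).2
      _ = (polG W).roots.toFinset.card * 2 := by rw [Finset.sum_const, smul_eq_mul]
      _ ≤ 16 * 2 := by
          apply Nat.mul_le_mul_right
          calc (polG W).roots.toFinset.card ≤ Multiset.card (polG W).roots :=
                Multiset.toFinset_card_le _
            _ ≤ (polG W).natDegree := card_roots' _
            _ = 16 := polG_natDegree W h15
      _ = 32 := by norm_num
  calc {P : W.Point | 5 • P = 0}.ncard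
      ≤ (insert 0 (⋃ x ∈ (polG W).roots.toFinset, {P : W.Point | HasXc W P x})).ncard :=
        Set.ncard_le_ncard (torsion_subset W h15) (hfin.insert 0)
    _ ≤ (⋃ x ∈ (polG W).roots.toFinset, {P : W.Point | HasXc W P x}).ncard + 1 :=
        Set.ncard_insert_le _ _
    _ ≤ 33 := by omega

/-- The `5`-torsion subgroup. -/
def torsFive : AddSubgroup W.Point where
  carrier := {P | 5 • P = 0}
  zero_mem' := nsmul_zero 5
  add_mem' := fun {a b} ha hb => by
    show 5 • (a + b) = 0
    rw [nsmul_add, show 5 • a = 0 from ha, show 5 • b = 0 from hb, add_zero]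
  neg_mem' := fun {a} ha => by
    show 5 • (-a) = 0
    rw [neg_nsmul, show 5 • a = 0 from ha, neg_zero]

lemma mem_torsFive {P : W.Point} : P ∈ torsFive W ↔ 5 • P = 0 := Iff.rfl

/-- **The `5`-torsion has at most `25` points.** -/
theorem ncard_torsion_five_le (h15 : (15 : F) ≠ 0) : {P : W.Point | 5 • P = 0}.ncard ≤ 25 := by
  have hfin := finite_torsion_five W h15
  have h33 := ncard_torsion_five_le_33 W h15
  have : Finite (torsFive W) := hfin
  have : Fact (Nat.Prime 5) := ⟨by norm_num⟩
  have hp : IsPGroup 5 (Multiplicative (torsFive W)) := by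
    intro g
    refine ⟨1, ?_⟩
    rw [pow_one]
    have h : 5 • (Multiplicative.toAdd g) = 0 := Subtype.ext (Multiplicative.toAdd g).2
    exact h
  obtain ⟨n, hn⟩ := (IsPGroup.iff_card (p := 5)).mp hp
  have hcard : {P : W.Point | 5 • P = 0}.ncard = 5 ^ n := by
    rw [← hn, Nat.card_congr Multiplicative.toAdd]
    rfl
  rw [hcard] at h33 ⊢
  have hn2 : n ≤ 2 := by
    by_contra hlt
    have h3 : 3 ≤ n := by omega
    have : 5 ^ 3 ≤ 5 ^ n := Nat.pow_le_pow_right (by norm_num) h3
    omega
  calc 5 ^ n ≤ 5 ^ 2 := Nat.pow_le_pow_right (by norm_num) hn2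
    _ = 25 := by norm_num

/-- If `g` is an injective family of `25` points killed by `5`, every point killed by `5` is in
its range. -/
theorem mem_range_of_five_nsmul (h15 : (15 : F) ≠ 0) {ι : Type*} [Fintype ι]
    (hι : Fintype.card ι = 25) (g : ι → W.Point) (hg : Function.Injective g)
    (h5 : ∀ i, 5 • g i = 0) {P : W.Point} (hP : 5 • P = 0) : P ∈ Set.range g := by
  have hfin := finite_torsion_five W h15
  have hsub : Set.range g ⊆ {P : W.Point | 5 • P = 0} := by
    rintro _ ⟨i, rfl⟩; exact h5 i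
  have hcard : (Set.range g).ncard = 25 := by
    rw [Set.ncard_range_of_injective hg, Nat.card_eq_fintype_card, hι]
  have heq : Set.range g = {P : W.Point | 5 • P = 0} :=
    Set.eq_of_subset_of_ncard_le hsub (by rw [hcard]; exact ncard_torsion_five_le W h15) hfin
  rw [heq]; exact hP

end Fermat.Agent.S52.TorsFive
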