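import Mathlib

set_option autoImplicit false

/-!
# Generic irreducibility of the 3-division quartic in the 5-congruent family
(helper file for S52, brick Irr3)

If `A³ - B² = c·DD⁵` in `ℚ[k]` with `DD` squarefree, nonconstant and coprime to `A`, then
* `64(B² - A³)` is not a cube in `ℚ[k]`;
* the quartic `Z⁴ - 6AZ² - 8BZ - 3A²` has no root in `ℚ[k]` (when `deg A ≤ 20`, `deg B ≤ 30`,
  `deg DD ≥ 5`).
-/

namespace Fermat.Agent.S52.GenIrr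

open Polynomial

/-- A nonzero constant multiple of the fifth power of a squarefree nonunit is not a cube. -/
lemma not_cube {DD : ℚ[X]} {c : ℚ} (hc : c ≠ 0) (hsq : Squarefree DD) (hDD : ¬ IsUnit DD)
    (ρ : ℚ[X]) : ρ ^ 3 ≠ C c * DD ^ 5 := by
  intro h
  obtain ⟨π, hπ, hπd⟩ := WfDvdMonoid.exists_irreducible_factor hDD hsq.ne_zero
  have hp : Prime π := hπ.prime
  obtain ⟨m, rfl⟩ := hπd
  have hm : ¬ π ∣ m := by
    rintro ⟨m', rfl⟩
    exact hπ.not_isUnit (hsq π ⟨m', by ring⟩)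
  have h1 : π ∣ ρ := by
    have h1' : π ∣ ρ ^ 3 := by rw [h]; exact ⟨C c * π ^ 4 * m ^ 5, by ring⟩
    exact hp.dvd_of_dvd_pow h1'
  obtain ⟨σ, rfl⟩ := h1
  have h2 : σ ^ 3 = C c * π ^ 2 * m ^ 5 := by
    have h' : π ^ 3 * σ ^ 3 = π ^ 3 * (C c * π ^ 2 * m ^ 5) := by linear_combination h
    exact mul_left_cancel₀ (pow_ne_zero 3 hp.ne_zero) h'
  have h3 : π ∣ σ := by
    have h3' : π ∣ σ ^ 3 := by rw [h2]; exact ⟨C c * π * m ^ 5, by ring⟩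
    exact hp.dvd_of_dvd_pow h3'
  obtain ⟨τ, rfl⟩ := h3
  have h4 : π * τ ^ 3 = C c * m ^ 5 := by
    have h' : π ^ 2 * (π * τ ^ 3) = π ^ 2 * (C c * m ^ 5) := by linear_combination h2
    exact mul_left_cancel₀ (pow_ne_zero 2 hp.ne_zero) h'
  have h5 : π ∣ C c * m ^ 5 := ⟨τ ^ 3, h4.symm⟩
  rcases hp.dvd_or_dvd h5 with h6 | h6
  · exact hπ.not_isUnit (isUnit_of_dvd_unit h6 (isUnit_C.mpr (IsUnit.mk0 c hc)))
  · exact hm (hp.dvd_of_dvd_pow h6)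

/-- (G1): `64(B² - A³)` is not a cube. -/
lemma not_cube' {A B DD : ℚ[X]} {c : ℚ} (hc : c ≠ 0) (hrel : A ^ 3 - B ^ 2 = C c * DD ^ 5)
    (hsq : Squarefree DD) (hDD : ¬ IsUnit DD) (ρ : ℚ[X]) : ρ ^ 3 ≠ 64 * (B ^ 2 - A ^ 3) := by
  intro h
  apply not_cube (c := -64 * c) (by simpa using hc) hsq hDD ρ
  rw [h]
  have e : (C (-64 * c) : ℚ[X]) = -64 * C c := by
    rw [C_mul, C_neg]; rfl
  rw [e]
  linear_combination (-64 : ℚ[X]) * hrel

/-- Degree bound for a polynomial root of the quartic. -/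
lemma natDegree_root_le {A B Z : ℚ[X]} (hA : A.natDegree ≤ 20) (hB : B.natDegree ≤ 30)
    (hZ : Z ^ 4 - 6 * A * Z ^ 2 - 8 * B * Z - 3 * A ^ 2 = 0) : Z.natDegree ≤ 10 := by
  by_contra hcon
  rw [not_le] at hcon
  have e : Z ^ 4 = 6 * A * Z ^ 2 + 8 * B * Z + 3 * A ^ 2 := by linear_combination hZ
  have h4 : (Z ^ 4).natDegree = 4 * Z.natDegree := natDegree_pow Z 4
  have h6 : (6 : ℚ[X]).natDegree ≤ 0 := by simp
  have h8 : (8 : ℚ[X]).natDegree ≤ 0 := by simp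
  have h3 : (3 : ℚ[X]).natDegree ≤ 0 := by simp
  have hr : (6 * A * Z ^ 2 + 8 * B * Z + 3 * A ^ 2).natDegree ≤ 4 * Z.natDegree - 1 := by
    refine natDegree_add_le_of_degree_le (natDegree_add_le_of_degree_le ?_ ?_) ?_
    · exact (natDegree_mul_le_of_le (natDegree_mul_le_of_le h6 hA)
        (natDegree_pow_le_of_le 2 le_rfl)).trans (by omega)
    · exact (natDegree_mul_le_of_le (natDegree_mul_le_of_le h8 hB) le_rfl).trans (by omega)
    · exact (natDegree_mul_le_of_le h3 (natDegree_pow_le_of_le 2 hA)).trans (by omega)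
  rw [← e, h4] at hr
  omega

/-- (G2): the quartic has no polynomial root. -/
lemma no_poly_root {A B DD : ℚ[X]} {c : ℚ} (hc : c ≠ 0) (hrel : A ^ 3 - B ^ 2 = C c * DD ^ 5)
    (hsq : Squarefree DD) (hcop : IsCoprime DD A) (hA : A.natDegree ≤ 20)
    (hB : B.natDegree ≤ 30) (hDD : 5 ≤ DD.natDegree) (Z : ℚ[X]) :
    Z ^ 4 - 6 * A * Z ^ 2 - 8 * B * Z - 3 * A ^ 2 ≠ 0 := by
  intro hZ
  have hDD0 : DD ≠ 0 := hsq.ne_zero
  have hCc : IsUnit (C c : ℚ[X]) := isUnit_C.mpr (IsUnit.mk0 c hc)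
  have h64 : IsUnit (-64 * C c : ℚ[X]) := by
    have e : (-64 * C c : ℚ[X]) = C (-64 * c) := by rw [C_mul, C_neg]; rfl
    rw [e]; exact isUnit_C.mpr (IsUnit.mk0 _ (by simpa using hc))
  have h8u : IsUnit (8 : ℚ[X]) := by
    have e : (8 : ℚ[X]) = C 8 := rfl
    rw [e]; exact isUnit_C.mpr (IsUnit.mk0 _ (by norm_num))
  have I1 : (Z ^ 2 - 9 * A) * (Z ^ 2 - A) ^ 3 = (-64 * C c) * DD ^ 5 * Z ^ 2 := by
    linear_combination (Z ^ 4 - 6 * A * Z ^ 2 - 3 * A ^ 2 + 8 * B * Z) * hZ + (-64 * Z ^ 2) * hrel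
  -- `DD` is coprime to `Z² - A`
  have hcopY : IsCoprime DD (Z ^ 2 - A) := by
    refine isCoprime_of_prime_dvd (fun h => hDD0 h.1) ?_
    intro π hp hπDD hπY
    have hπA : ¬ π ∣ A := fun h => hp.not_isUnit (hcop.isUnit_of_dvd' hπDD h)
    have hπZ : ¬ π ∣ Z := fun h => hπA (by
      have : π ∣ Z ^ 2 - (Z ^ 2 - A) := dvd_sub (dvd_pow h (by norm_num)) hπY
      simpa using this)
    have hπX : ¬ π ∣ Z ^ 2 - 9 * A := fun h => by
      have h1 : π ∣ (Z ^ 2 - A) - (Z ^ 2 - 9 * A) := dvd_sub hπY h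
      have h2 : (Z ^ 2 - A) - (Z ^ 2 - 9 * A) = 8 * A := by ring
      rw [h2] at h1
      rcases hp.dvd_or_dvd h1 with h3 | h3
      · exact hp.not_isUnit (isUnit_of_dvd_unit h3 h8u)
      · exact hπA h3
    obtain ⟨m, rfl⟩ := hπDD
    have hm : ¬ π ∣ m := by
      rintro ⟨m', rfl⟩
      exact hp.not_isUnit (hsq π ⟨m', by ring⟩)
    obtain ⟨y, hy⟩ := hπY
    rw [hy] at I1
    have J1 : (Z ^ 2 - 9 * A) * y ^ 3 = (-64 * C c) * π ^ 2 * m ^ 5 * Z ^ 2 := by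
      have h' : π ^ 3 * ((Z ^ 2 - 9 * A) * y ^ 3)
          = π ^ 3 * ((-64 * C c) * π ^ 2 * m ^ 5 * Z ^ 2) := by linear_combination I1
      exact mul_left_cancel₀ (pow_ne_zero 3 hp.ne_zero) h'
    have hy1 : π ∣ y := by
      have h1 : π ∣ (Z ^ 2 - 9 * A) * y ^ 3 := by
        rw [J1]; exact ⟨(-64 * C c) * π * m ^ 5 * Z ^ 2, by ring⟩
      rcases hp.dvd_or_dvd h1 with h2 | h2
      · exact absurd h2 hπX
      · exact hp.dvd_of_dvd_pow h2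
    obtain ⟨y', rfl⟩ := hy1
    have J2 : π * ((Z ^ 2 - 9 * A) * y' ^ 3) = (-64 * C c) * (m ^ 5 * Z ^ 2) := by
      have h' : π ^ 2 * (π * ((Z ^ 2 - 9 * A) * y' ^ 3))
          = π ^ 2 * ((-64 * C c) * (m ^ 5 * Z ^ 2)) := by linear_combination J1
      exact mul_left_cancel₀ (pow_ne_zero 2 hp.ne_zero) h'
    have h1 : π ∣ (-64 * C c) * (m ^ 5 * Z ^ 2) := ⟨_, J2.symm⟩
    rcases hp.dvd_or_dvd h1 with h2 | h2
    · exact hp.not_isUnit (isUnit_of_dvd_unit h2 h64)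
    · rcases hp.dvd_or_dvd h2 with h3 | h3
      · exact hm (hp.dvd_of_dvd_pow h3)
      · exact hπZ (hp.dvd_of_dvd_pow h3)
  -- hence `DD⁵ ∣ Z² - 9A`
  have hdvd : DD ^ 5 ∣ Z ^ 2 - 9 * A := by
    have hc5 : IsCoprime (DD ^ 5) ((Z ^ 2 - A) ^ 3) := hcopY.pow
    exact hc5.dvd_of_dvd_mul_right ⟨(-64 * C c) * Z ^ 2, by rw [I1]; ring⟩
  have hZdeg := natDegree_root_le hA hB hZ
  have hX0 : Z ^ 2 - 9 * A = 0 := by
    by_contra hne
    have h1 := natDegree_le_of_dvd hdvd hne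
    rw [natDegree_pow] at h1
    have h9 : (9 : ℚ[X]).natDegree ≤ 0 := by simp
    have h2 : (Z ^ 2 - 9 * A).natDegree ≤ 20 := by
      refine (natDegree_sub_le_of_le (natDegree_pow_le_of_le 2 hZdeg)
        (natDegree_mul_le_of_le h9 hA)).trans (by norm_num)
    omega
  -- conclude
  have hBZ : B * Z = 3 * A ^ 2 := by
    have h8 : (8 : ℚ[X]) * (B * Z) = 8 * (3 * A ^ 2) := by
      linear_combination (-1 : ℚ[X]) * hZ + (Z ^ 2 + 3 * A) * hX0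
    exact mul_left_cancel₀ h8u.ne_zero h8
  have hfin : A * (A ^ 3 - B ^ 2) = 0 := by
    have h9 : (9 : ℚ[X]) * (A * (A ^ 3 - B ^ 2)) = 9 * 0 := by
      linear_combination B ^ 2 * hX0 - (B * Z + 3 * A ^ 2) * hBZ
    have h9n : (9 : ℚ[X]) ≠ 0 := by norm_num
    exact mul_left_cancel₀ h9n h9
  rcases mul_eq_zero.mp hfin with h0 | h0
  · rw [h0] at hcop
    have hu : IsUnit DD := isCoprime_zero_right.mp hcop
    have := natDegree_eq_zero_of_isUnit hu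
    omega
  · rw [hrel] at h0
    exact (mul_ne_zero hCc.ne_zero (pow_ne_zero 5 hDD0)) h0

/-- With `DD` squarefree, the relation `A³ - B² = c·DD⁵` forces `DD` to be coprime to `A`. -/
lemma isCoprime_of_rel {A B DD : ℚ[X]} {c : ℚ} (hc : c ≠ 0)
    (hrel : A ^ 3 - B ^ 2 = C c * DD ^ 5) (hsq : Squarefree DD) : IsCoprime DD A := by
  refine isCoprime_of_prime_dvd (fun h => hsq.ne_zero h.1) ?_
  intro π hp hπDD hπA
  have hCc : IsUnit (C c : ℚ[X]) := isUnit_C.mpr (IsUnit.mk0 c hc)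
  obtain ⟨m, rfl⟩ := hπDD
  have hm : ¬ π ∣ m := by
    rintro ⟨m', rfl⟩
    exact hp.not_isUnit (hsq π ⟨m', by ring⟩)
  obtain ⟨A1, rfl⟩ := hπA
  have hB : π ∣ B := by
    have e : B ^ 2 = π * (π ^ 2 * A1 ^ 3 - C c * π ^ 4 * m ^ 5) := by linear_combination -hrel
    exact hp.dvd_of_dvd_pow (e ▸ Dvd.intro _ rfl)
  obtain ⟨B1, rfl⟩ := hB
  have e1 : π * A1 ^ 3 - B1 ^ 2 = C c * π ^ 3 * m ^ 5 := by
    have h' : π ^ 2 * (π * A1 ^ 3 - B1 ^ 2) = π ^ 2 * (C c * π ^ 3 * m ^ 5) := by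
      linear_combination hrel
    exact mul_left_cancel₀ (pow_ne_zero 2 hp.ne_zero) h'
  have hB1 : π ∣ B1 := by
    have e : B1 ^ 2 = π * (A1 ^ 3 - C c * π ^ 2 * m ^ 5) := by linear_combination -e1
    exact hp.dvd_of_dvd_pow (e ▸ Dvd.intro _ rfl)
  obtain ⟨B2, rfl⟩ := hB1
  have e2 : A1 ^ 3 - π * B2 ^ 2 = C c * π ^ 2 * m ^ 5 := by
    have h' : π * (A1 ^ 3 - π * B2 ^ 2) = π * (C c * π ^ 2 * m ^ 5) := by
      linear_combination e1
    exact mul_left_cancel₀ hp.ne_zero h'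
  have hA1 : π ∣ A1 := by
    have e : A1 ^ 3 = π * (B2 ^ 2 + C c * π * m ^ 5) := by linear_combination e2
    exact hp.dvd_of_dvd_pow (e ▸ Dvd.intro _ rfl)
  obtain ⟨A2, rfl⟩ := hA1
  have e3 : π ^ 2 * A2 ^ 3 - B2 ^ 2 = C c * π * m ^ 5 := by
    have h' : π * (π ^ 2 * A2 ^ 3 - B2 ^ 2) = π * (C c * π * m ^ 5) := by
      linear_combination e2
    exact mul_left_cancel₀ hp.ne_zero h'
  have hB2 : π ∣ B2 := by
    have e : B2 ^ 2 = π * (π * A2 ^ 3 - C c * m ^ 5) := by linear_combination -e3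
    exact hp.dvd_of_dvd_pow (e ▸ Dvd.intro _ rfl)
  obtain ⟨B3, rfl⟩ := hB2
  have e4 : π * A2 ^ 3 - π * B3 ^ 2 = C c * m ^ 5 := by
    have h' : π * (π * A2 ^ 3 - π * B3 ^ 2) = π * (C c * m ^ 5) := by
      linear_combination e3
    exact mul_left_cancel₀ hp.ne_zero h'
  have h5 : π ∣ C c * m ^ 5 := ⟨A2 ^ 3 - B3 ^ 2, by linear_combination -e4⟩
  rcases hp.dvd_or_dvd h5 with h6 | h6
  · exact hp.not_isUnit (isUnit_of_dvd_unit h6 hCc)
  · exact hm (hp.dvd_of_dvd_pow h6)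

end Fermat.Agent.S52.GenIrr
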