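import Mathlib

set_option autoImplicit false

/-!
# The 3-division quartic over a function field (helper file for S52, brick Irr3)

For `a b` in a field, the quartic `Z⁴ - 6aZ² - 8bZ - 3a²` has resolvent cubic
`(u - 4a)³ + 64(a³ - b²)`.  Hence over `ℚ(k)` the quartic with `a = A(k)`, `b = B(k)` is
irreducible as soon as it has no polynomial root and `64(B² - A³)` is not a cube in `ℚ[k]`.
We deduce the "coprimality certificate" used by Runge's method.
-/

namespace Fermat.Agent.S52.QuarticCop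

open Polynomial

/-- The resolvent-cubic identity for a factorisation into two monic quadratics. -/
lemma cube_of_quadratic_factor {F : Type*} [Field F] (a b α β α' β' : F)
    (h : (X ^ 2 + C α * X + C β) * (X ^ 2 + C α' * X + C β')
      = (X ^ 4 - (C (6 * a) * X ^ 2 + C (8 * b) * X + C (3 * a ^ 2)) : F[X])) :
    (α ^ 2 - 4 * a) ^ 3 = 64 * (b ^ 2 - a ^ 3) := by
  have e : (X ^ 2 + C α * X + C β) * (X ^ 2 + C α' * X + C β')
      = (X ^ 4 + C (α + α') * X ^ 3 + C (β + β' + α * α') * X ^ 2 + C (α * β' + α' * β) * X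
        + C (β * β') : F[X]) := by
    simp only [map_add, map_mul]; ring
  rw [e] at h
  have e3 := congrArg (fun p => p.coeff 3) h
  have e2 := congrArg (fun p => p.coeff 2) h
  have e1 := congrArg (fun p => p.coeff 1) h
  have e0 := congrArg (fun p => p.coeff 0) h
  simp only [coeff_add, coeff_sub, coeff_X_pow, coeff_C_mul_X_pow, coeff_C_mul_X, coeff_C]
    at e3 e2 e1 e0
  norm_num at e3 e2 e1 e0
  have hα' : α' = -α := by linear_combination e3
  subst hα'
  have hβ' : β' = α ^ 2 - 6 * a - β := by linear_combination e2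
  subst hβ'
  linear_combination (α * (α ^ 2 - 6 * a - 2 * β) - 8 * b) * e1 + 4 * α ^ 2 * e0

lemma monic_quartic {R : Type*} [CommRing R] [Nontrivial R] (a b c : R) :
    (X ^ 4 - (C a * X ^ 2 + C b * X + C c) : R[X]).Monic :=
  monic_X_pow_sub (lt_of_le_of_lt degree_quadratic_le (by norm_num))

lemma natDegree_quartic {R : Type*} [CommRing R] [Nontrivial R] (a b c : R) :
    (X ^ 4 - (C a * X ^ 2 + C b * X + C c) : R[X]).natDegree = 4 := by
  rw [natDegree_sub_eq_left_of_natDegree_lt] <;> rw [natDegree_X_pow]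
  exact lt_of_le_of_lt natDegree_quadratic_le (by norm_num)

/-- Elements of the fraction field that are roots of monic polynomials are polynomials. -/
lemma exists_poly_of_monic_root {p : ℚ[X][X]} (hp : p.Monic) {r : FractionRing ℚ[X]}
    (hr : aeval r p = 0) : ∃ s : ℚ[X], algebraMap ℚ[X] (FractionRing ℚ[X]) s = r :=
  isInteger_of_is_root_of_monic hp hr

/-- Irreducibility of the quartic over `ℚ(k)`. -/
lemma quartic_irreducible (A B : ℚ[X])
    (hG1 : ∀ ρ : ℚ[X], ρ ^ 3 ≠ 64 * (B ^ 2 - A ^ 3))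
    (hG2 : ∀ Zp : ℚ[X], Zp ^ 4 - 6 * A * Zp ^ 2 - 8 * B * Zp - 3 * A ^ 2 ≠ 0) :
    Irreducible (X ^ 4 - (C (6 * algebraMap ℚ[X] (FractionRing ℚ[X]) A) * X ^ 2
      + C (8 * algebraMap ℚ[X] (FractionRing ℚ[X]) B) * X
      + C (3 * algebraMap ℚ[X] (FractionRing ℚ[X]) A ^ 2)) : (FractionRing ℚ[X])[X]) := by
  set φ := algebraMap ℚ[X] (FractionRing ℚ[X]) with hφ
  have hinj : Function.Injective φ := IsFractionRing.injective ℚ[X] (FractionRing ℚ[X])
  have hmon := monic_quartic (6 * φ A) (8 * φ B) (3 * φ A ^ 2)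
  have hnat := natDegree_quartic (6 * φ A) (8 * φ B) (3 * φ A ^ 2)
  -- no root
  have hroot : ∀ z : FractionRing ℚ[X],
      z ^ 4 - 6 * φ A * z ^ 2 - 8 * φ B * z - 3 * φ A ^ 2 ≠ 0 := by
    intro z hz
    have hm2 := monic_quartic (6 * A) (8 * B) (3 * A ^ 2)
    have hr : aeval z (X ^ 4 - (C (6 * A) * X ^ 2 + C (8 * B) * X + C (3 * A ^ 2)) : ℚ[X][X])
        = 0 := by
      rw [aeval_def]
      simp only [eval₂_sub, eval₂_add, eval₂_mul, eval₂_pow, eval₂_X, eval₂_C]
      rw [← hφ]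
      simp only [map_mul φ, map_pow φ, map_ofNat φ]
      linear_combination hz
    obtain ⟨s, rfl⟩ := exists_poly_of_monic_root hm2 hr
    apply hG2 s
    apply hinj
    rw [map_zero]
    simp only [map_sub φ, map_mul φ, map_pow φ, map_ofNat φ]
    exact hz
  -- no cube
  have hcube : ∀ r : FractionRing ℚ[X], r ^ 3 ≠ 64 * (φ B ^ 2 - φ A ^ 3) := by
    intro r hr
    have hm2 : (X ^ 3 - C (64 * (B ^ 2 - A ^ 3)) : ℚ[X][X]).Monic :=
      monic_X_pow_sub_C _ (by norm_num)
    have hr' : aeval r (X ^ 3 - C (64 * (B ^ 2 - A ^ 3)) : ℚ[X][X]) = 0 := by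
      rw [aeval_def]
      simp only [eval₂_sub, eval₂_pow, eval₂_X, eval₂_C]
      rw [← hφ]
      simp only [map_sub φ, map_mul φ, map_pow φ, map_ofNat φ]
      linear_combination hr
    obtain ⟨s, rfl⟩ := exists_poly_of_monic_root hm2 hr'
    apply hG1 s
    apply hinj
    simp only [map_sub φ, map_mul φ, map_pow φ, map_ofNat φ]
    exact hr
  rw [hmon.irreducible_iff_natDegree']
  refine ⟨fun h1 => ?_, ?_⟩
  · rw [h1] at hnat; simp at hnat
  · intro f g hf hg hfg hmem
    rw [hnat] at hmem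
    have hsum : f.natDegree + g.natDegree = 4 := by
      rw [← hf.natDegree_mul hg, hfg, hnat]
    simp only [Finset.mem_Ioc] at hmem
    obtain ⟨hg0, hg2⟩ := hmem
    have hg2' : g.natDegree ≤ 2 := by omega
    rcases Nat.lt_or_ge g.natDegree 2 with h | h
    · -- degree one: a root
      have hg1 : g.natDegree = 1 := by omega
      have hgX := hg.eq_X_add_C hg1
      apply hroot (-(g.coeff 0))
      have hev := congrArg (eval (-(g.coeff 0))) hfg
      have hg0' : eval (-(g.coeff 0)) g = 0 := by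
        conv_lhs => rw [hgX]
        simp
      rw [eval_mul, hg0', mul_zero] at hev
      simp only [eval_mul, eval_add, eval_X, eval_C, eval_sub, eval_pow] at hev
      linear_combination -hev
    · -- two quadratics
      have hg2e : g.natDegree = 2 := by omega
      have hf2e : f.natDegree = 2 := by omega
      have hfs : f = X ^ 2 + C (f.coeff 1) * X + C (f.coeff 0) := by
        conv_lhs => rw [hf.as_sum, hf2e]
        simp [Finset.sum_range_succ]; ring
      have hgs : g = X ^ 2 + C (g.coeff 1) * X + C (g.coeff 0) := by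
        conv_lhs => rw [hg.as_sum, hg2e]
        simp [Finset.sum_range_succ]; ring
      rw [hfs, hgs] at hfg
      exact hcube _ (cube_of_quadratic_factor _ _ _ _ _ _ hfg)

/-- **Coprimality certificate.** -/
theorem cop (A B : ℚ[X])
    (hG1 : ∀ ρ : ℚ[X], ρ ^ 3 ≠ 64 * (B ^ 2 - A ^ 3))
    (hG2 : ∀ Zp : ℚ[X], Zp ^ 4 - 6 * A * Zp ^ 2 - 8 * B * Zp - 3 * A ^ 2 ≠ 0)
    (p3 p2 p1 p0 : ℚ[X]) (hp3 : p3 ≠ 0) :
    ∃ d : ℚ[X], d ≠ 0 ∧ ∀ k z : ℚ,
      z ^ 4 - 6 * A.eval k * z ^ 2 - 8 * B.eval k * z - 3 * A.eval k ^ 2 = 0 →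
      p3.eval k * z ^ 3 + p2.eval k * z ^ 2 + p1.eval k * z + p0.eval k = 0 → d.eval k = 0 := by
  have hirr := quartic_irreducible A B hG1 hG2
  set φ := algebraMap ℚ[X] (FractionRing ℚ[X]) with hφ
  have hinj : Function.Injective φ := IsFractionRing.injective ℚ[X] (FractionRing ℚ[X])
  -- the two bivariate polynomials
  obtain ⟨Q2, hQ2⟩ : ∃ Q2 : ℚ[X][X],
    Q2 = X ^ 4 - (C (6 * A) * X ^ 2 + C (8 * B) * X + C (3 * A ^ 2)) := ⟨_, rfl⟩
  obtain ⟨P2, hP2⟩ : ∃ P2 : ℚ[X][X], P2 = C p3 * X ^ 3 + C p2 * X ^ 2 + C p1 * X + C p0 :=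
    ⟨_, rfl⟩
  have hQmap : Q2.map φ = X ^ 4 - (C (6 * φ A) * X ^ 2 + C (8 * φ B) * X + C (3 * φ A ^ 2)) := by
    simp only [hQ2, Polynomial.map_sub, Polynomial.map_add, Polynomial.map_mul, Polynomial.map_pow,
      map_X, map_C]
    simp only [map_mul φ, map_pow φ, map_ofNat φ]
  have hPmap : P2.map φ = C (φ p3) * X ^ 3 + C (φ p2) * X ^ 2 + C (φ p1) * X + C (φ p0) := by
    simp only [hP2, Polynomial.map_add, Polynomial.map_mul, Polynomial.map_pow, map_X, map_C]
  have hPne : P2.map φ ≠ 0 := by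
    intro h0
    have h3 := congrArg (fun p => p.coeff 3) h0
    rw [hPmap] at h3
    simp only [coeff_add, coeff_C_mul_X_pow, coeff_C_mul_X, coeff_C, coeff_zero] at h3
    norm_num at h3
    exact hp3 (hinj (by rw [h3, map_zero]))
  have hPdeg : (P2.map φ).natDegree < 4 := by
    rw [hPmap]; exact lt_of_le_of_lt natDegree_cubic_le (by norm_num)
  have hndvd : ¬ (Q2.map φ) ∣ (P2.map φ) := by
    rw [hQmap]
    refine not_dvd_of_natDegree_lt hPne ?_
    rw [natDegree_quartic]; exact hPdeg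
  rw [← hQmap] at hirr
  have hcop : IsCoprime (Q2.map φ) (P2.map φ) := hirr.coprime_iff_not_dvd.mpr hndvd
  obtain ⟨U, V, hUV⟩ := hcop
  obtain ⟨bU, hbU, eU⟩ := IsLocalization.integerNormalization_spec (nonZeroDivisors ℚ[X]) U
  obtain ⟨bV, hbV, eV⟩ := IsLocalization.integerNormalization_spec (nonZeroDivisors ℚ[X]) V
  obtain ⟨U', hU'⟩ : ∃ U' : ℚ[X][X],
    U' = IsLocalization.integerNormalization (nonZeroDivisors ℚ[X]) U := ⟨_, rfl⟩
  obtain ⟨V', hV'⟩ : ∃ V' : ℚ[X][X],
    V' = IsLocalization.integerNormalization (nonZeroDivisors ℚ[X]) V := ⟨_, rfl⟩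
  rw [← hU', ← hφ] at eU
  rw [← hV', ← hφ] at eV
  have key : C bV * U' * Q2 + C bU * V' * P2 = C (bU * bV) := by
    apply Polynomial.map_injective φ hinj
    simp only [Polynomial.map_add, Polynomial.map_mul, map_C, eU, eV]
    rw [Algebra.smul_def, Algebra.smul_def, Polynomial.algebraMap_apply,
      Polynomial.algebraMap_apply, map_mul φ, C_mul]
    linear_combination C (φ bU) * C (φ bV) * hUV
  refine ⟨bU * bV, mul_ne_zero (nonZeroDivisors.ne_zero hbU) (nonZeroDivisors.ne_zero hbV), ?_⟩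
  intro k z hq hp
  have h := congrArg (eval₂ (evalRingHom k) z) key
  have hQ0 : eval₂ (evalRingHom k) z Q2 = 0 := by
    rw [hQ2]
    simp only [eval₂_sub, eval₂_add, eval₂_mul, eval₂_pow, eval₂_X, eval₂_C, coe_evalRingHom,
      eval_mul, eval_pow, eval_ofNat]
    linear_combination hq
  have hP0 : eval₂ (evalRingHom k) z P2 = 0 := by
    rw [hP2]
    simp only [eval₂_add, eval₂_mul, eval₂_pow, eval₂_X, eval₂_C, coe_evalRingHom]
    linear_combination hp
  simp only [eval₂_add, eval₂_mul, hQ0, hP0, mul_zero, add_zero, eval₂_C, coe_evalRingHom] at h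
  exact h.symm

end Fermat.Agent.S52.QuarticCop
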