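import Fermat.Agent.S52.RungeCore
import Fermat.Agent.S52.QuarticCop
import Fermat.Agent.S52.GenIrr

set_option autoImplicit false

/-!
# Brick (Irr3) of the 3-5 switch, without Hilbert irreducibility: the abstract statement

Let `A`, `B` be integer polynomials of degrees at most `20`, `30` such that
`A³ - B² = c·DD⁵` with `c ≠ 0` and `DD` squarefree (over `ℚ`) of degree at least `5`.  If the limit
quartic `Z⁴ - 6c₄Z² - 8c₆Z - 3c₄²` (`c₄, c₆` the top coefficients of `A, B`, `c₄³ ≠ c₆²`) has a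
rational root, then for all large integers `k` the quartic `Z⁴ - 6A(k)Z² - 8B(k)Z - 3A(k)²` has no
rational root.
-/

namespace Fermat.Agent.S52.Irr3

open Polynomial

/-- The rational root of the limit quartic is simple. -/
lemma simple_root (c4 c6 z : ℚ) (hΔ : c4 ^ 3 - c6 ^ 2 ≠ 0)
    (h : z ^ 4 - 6 * c4 * z ^ 2 - 8 * c6 * z - 3 * c4 ^ 2 = 0) :
    4 * z ^ 3 - 12 * c4 * z - 8 * c6 ≠ 0 := by
  intro h'
  have e1 : c4 * z ^ 2 + 2 * c6 * z + c4 ^ 2 = 0 := by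
    linear_combination (z / 12) * h' - (1 / 3 : ℚ) * h
  have e3 : c6 * z ^ 2 + 2 * c4 ^ 2 * z + c4 * c6 = 0 := by
    linear_combination (z / 2) * e1 - (c4 / 8) * h'
  have e4 : (c4 ^ 3 - c6 ^ 2) * z = 0 := by
    linear_combination (-c6 / 2) * e1 + (c4 / 2) * e3
  have hz : z = 0 := by
    rcases mul_eq_zero.mp e4 with h0 | h0
    · exact absurd h0 hΔ
    · exact h0
  subst hz
  have hc6 : c6 = 0 := by linear_combination (-1 / 8 : ℚ) * h'
  have hc4 : c4 ^ 2 = 0 := by linear_combination (-1 / 3 : ℚ) * h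
  have hc4' : c4 = 0 := pow_eq_zero_iff (by norm_num) |>.mp hc4
  apply hΔ
  rw [hc4', hc6]; ring

/-- **Abstract (Irr3).**  No rational roots for large parameters. -/
theorem no_rational_root_eventually (A B DD : ℤ[X]) (c : ℤ) (hc : c ≠ 0)
    (hA : A.natDegree ≤ 20) (hB : B.natDegree ≤ 30)
    (hrel : A ^ 3 - B ^ 2 = C c * DD ^ 5)
    (hsq : Squarefree (DD.map (Int.castRingHom ℚ)))
    (hDD : 5 ≤ DD.natDegree)
    (hlead : (A.coeff 20 : ℚ) ^ 3 - (B.coeff 30 : ℚ) ^ 2 ≠ 0)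
    (Z0 : ℚ) (hZ0 : Z0 ^ 4 - 6 * (A.coeff 20 : ℚ) * Z0 ^ 2 - 8 * (B.coeff 30 : ℚ) * Z0
      - 3 * (A.coeff 20 : ℚ) ^ 2 = 0) :
    ∃ k0 : ℤ, ∀ k : ℤ, k0 ≤ k → ∀ z : ℚ,
      z ^ 4 - 6 * ((A.eval k : ℤ) : ℚ) * z ^ 2 - 8 * ((B.eval k : ℤ) : ℚ) * z
        - 3 * ((A.eval k : ℤ) : ℚ) ^ 2 ≠ 0 := by
  have hcq : (c : ℚ) ≠ 0 := by exact_mod_cast hc
  have hrelq : (A.map (Int.castRingHom ℚ)) ^ 3 - (B.map (Int.castRingHom ℚ)) ^ 2
      = C (c : ℚ) * (DD.map (Int.castRingHom ℚ)) ^ 5 := by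
    have h := congrArg (Polynomial.map (Int.castRingHom ℚ)) hrel
    simp only [Polynomial.map_sub, Polynomial.map_pow, Polynomial.map_mul, map_C] at h
    exact h
  have hAq : (A.map (Int.castRingHom ℚ)).natDegree ≤ 20 := natDegree_map_le.trans hA
  have hBq : (B.map (Int.castRingHom ℚ)).natDegree ≤ 30 := natDegree_map_le.trans hB
  have hDDq : 5 ≤ (DD.map (Int.castRingHom ℚ)).natDegree := by
    rw [natDegree_map_eq_of_injective (RingHom.injective_int (Int.castRingHom ℚ))]; exact hDD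
  have hunit : ¬ IsUnit (DD.map (Int.castRingHom ℚ)) := fun hu => by
    have := natDegree_eq_zero_of_isUnit hu
    omega
  have hcop := Fermat.Agent.S52.GenIrr.isCoprime_of_rel hcq hrelq hsq
  have hG1 := Fermat.Agent.S52.GenIrr.not_cube' hcq hrelq hsq hunit
  have hG2 := Fermat.Agent.S52.GenIrr.no_poly_root hcq hrelq hsq hcop hAq hBq hDDq
  exact Fermat.Agent.S52.RungeCore.runge A B hA hB Z0 hZ0
    (simple_root _ _ Z0 hlead hZ0) hG2
    (Fermat.Agent.S52.QuarticCop.cop _ _ hG1 hG2)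

end Fermat.Agent.S52.Irr3
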