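import Mathlib

set_option autoImplicit false

namespace Fermat.Agent.S52.Runge

open Polynomial

/-- The `ℓ¹`-norm of a rational polynomial. -/
noncomputable def l1 (p : ℚ[X]) : ℚ := ∑ i ∈ p.support, |p.coeff i|

lemma l1_nonneg (p : ℚ[X]) : 0 ≤ l1 p := Finset.sum_nonneg fun _ _ => abs_nonneg _

lemma abs_eval_le_l1 (p : ℚ[X]) {x : ℚ} (hx0 : 0 ≤ x) (hx1 : x ≤ 1) : |p.eval x| ≤ l1 p := by
  rw [eval_eq_sum, Polynomial.sum]
  calc |∑ i ∈ p.support, p.coeff i * x ^ i| ≤ ∑ i ∈ p.support, |p.coeff i * x ^ i| :=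
        Finset.abs_sum_le_sum_abs _ _
    _ ≤ ∑ i ∈ p.support, |p.coeff i| := by
        apply Finset.sum_le_sum
        intro i _
        rw [abs_mul, abs_of_nonneg (pow_nonneg hx0 i)]
        exact mul_le_of_le_one_right (abs_nonneg _) (pow_le_one₀ hx0 hx1)

/-- The quartic evaluated at a polynomial. -/
noncomputable def G (A2 A1 A0 w : ℚ[X]) : ℚ[X] := w ^ 4 + A2 * w ^ 2 + A1 * w + A0

/-- Hensel lifting of a simple root to any order in `t`. -/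
lemma hensel (A2 A1 A0 : ℚ[X]) (Z0 : ℚ)
    (hroot : Z0 ^ 4 + A2.coeff 0 * Z0 ^ 2 + A1.coeff 0 * Z0 + A0.coeff 0 = 0)
    (hsimple : 4 * Z0 ^ 3 + 2 * A2.coeff 0 * Z0 + A1.coeff 0 ≠ 0) (M : ℕ) :
    ∃ w : ℚ[X], w.coeff 0 = Z0 ∧ X ^ (M + 1) ∣ G A2 A1 A0 w := by
  induction M with
  | zero =>
    refine ⟨C Z0, by simp, ?_⟩
    rw [zero_add, pow_one, X_dvd_iff]
    simp only [G, coeff_zero_eq_eval_zero, eval_add, eval_mul, eval_pow, eval_C]
    simp only [← coeff_zero_eq_eval_zero]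
    exact hroot
  | succ M ih =>
    obtain ⟨w, hw0, ρ, hρ⟩ := ih
    set d := 4 * Z0 ^ 3 + 2 * A2.coeff 0 * Z0 + A1.coeff 0 with hd
    set c := - ρ.coeff 0 / d with hc
    set δ : ℚ[X] := C c * X ^ (M + 1) with hδ
    set S : ℚ[X] := 4 * w ^ 3 + 6 * w ^ 2 * δ + 4 * w * δ ^ 2 + δ ^ 3 + A2 * (2 * w + δ) + A1 with hS
    refine ⟨w + δ, ?_, ?_⟩
    · simp [hδ, hw0]
    · have key : G A2 A1 A0 (w + δ) = X ^ (M + 1) * (ρ + C c * S) := by
        have h1 : G A2 A1 A0 (w + δ) = G A2 A1 A0 w + δ * S := by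
          simp only [G, hS]; ring
        rw [h1, hρ, hδ]; ring
      rw [key, pow_succ (X : ℚ[X]) (M + 1)]
      apply mul_dvd_mul_left
      rw [X_dvd_iff]
      have hδ0 : δ.coeff 0 = 0 := by simp [hδ]
      have hS0 : S.coeff 0 = d := by
        simp only [hS, coeff_zero_eq_eval_zero, eval_add, eval_mul, eval_pow, eval_ofNat]
        simp only [← coeff_zero_eq_eval_zero, hδ0, hw0, hd]
        ring
      rw [coeff_add, coeff_C_mul, hS0, hc]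
      field_simp
      ring


/-- A nonzero rational polynomial does not vanish at large natural numbers. -/
lemma eventually_eval_natCast_ne_zero {R : ℚ[X]} (hR : R ≠ 0) :
    ∀ᶠ k : ℕ in Filter.atTop, R.eval (k : ℚ) ≠ 0 := by
  have hfin : {k : ℕ | R.eval (k : ℚ) = 0}.Finite := by
    have hsub : {k : ℕ | R.eval (k : ℚ) = 0} ⊆
        (fun k : ℕ => (k : ℚ)) ⁻¹' (R.roots.toFinset : Set ℚ) := by
      intro k hk
      simp only [Set.mem_preimage, Finset.mem_coe, Multiset.mem_toFinset]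
      exact (mem_roots hR).mpr hk
    exact (Set.Finite.preimage (Nat.cast_injective.injOn) (Finset.finite_toSet _)).subset hsub
  have := hfin.compl_mem_cofinite
  rw [Nat.cofinite_eq_atTop] at this
  exact this

/-- A common denominator for the coefficients of a rational polynomial. -/
lemma exists_den (p : ℚ[X]) : ∃ D : ℕ, 0 < D ∧ ∀ i, ∃ z : ℤ, (D : ℚ) * p.coeff i = z := by
  induction p using Polynomial.induction_on' with
  | add p q hp hq =>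
    obtain ⟨D1, hD1, h1⟩ := hp
    obtain ⟨D2, hD2, h2⟩ := hq
    refine ⟨D1 * D2, Nat.mul_pos hD1 hD2, fun i => ?_⟩
    obtain ⟨z1, hz1⟩ := h1 i
    obtain ⟨z2, hz2⟩ := h2 i
    refine ⟨D2 * z1 + D1 * z2, ?_⟩
    push_cast
    rw [coeff_add, ← hz1, ← hz2]
    ring
  | monomial n a =>
    refine ⟨a.den, a.den_pos, fun i => ?_⟩
    rw [coeff_monomial]
    split_ifs
    · exact ⟨a.num, by rw [mul_comm]; exact Rat.mul_den_eq_num a⟩
    · exact ⟨0, by simp⟩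

/-- `k ^ n * p (1 / k)` has bounded denominators. -/
lemma int_scaled (p : ℚ[X]) : ∃ D : ℕ, 0 < D ∧ ∀ n, p.natDegree ≤ n → ∀ k : ℕ, 0 < k →
    ∃ z : ℤ, (D : ℚ) * ((k : ℚ) ^ n * p.eval (1 / (k : ℚ))) = z := by
  obtain ⟨D, hD, h⟩ := exists_den p
  choose z hz using h
  refine ⟨D, hD, fun n hn k hk => ?_⟩
  have hk0 : (k : ℚ) ≠ 0 := by positivity
  refine ⟨∑ i ∈ Finset.range (n + 1), z i * (k : ℤ) ^ (n - i), ?_⟩
  rw [eval_eq_sum_range' (Nat.lt_succ_of_le hn), Finset.mul_sum, Finset.mul_sum]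
  push_cast
  apply Finset.sum_congr rfl
  intro i hi
  have hin : i ≤ n := Nat.lt_succ_iff.mp (Finset.mem_range.mp hi)
  rw [← hz i]
  have : (k : ℚ) ^ n * (1 / (k : ℚ)) ^ i = (k : ℚ) ^ (n - i) := by
    rw [one_div, inv_pow, pow_sub₀ _ hk0 hin]
  calc (D : ℚ) * ((k : ℚ) ^ n * (p.coeff i * (1 / (k : ℚ)) ^ i))
      = (D : ℚ) * p.coeff i * ((k : ℚ) ^ n * (1 / (k : ℚ)) ^ i) := by ring
    _ = (D : ℚ) * p.coeff i * (k : ℚ) ^ (n - i) := by rw [this]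

/-- Cauchy-type bound for the roots of a quartic without cubic term. -/
lemma root_bound {a2 a1 a0 b2 b1 b0 W : ℚ} (h2 : |a2| ≤ b2) (h1 : |a1| ≤ b1) (h0 : |a0| ≤ b0)
    (h : W ^ 4 + a2 * W ^ 2 + a1 * W + a0 = 0) : |W| ≤ 1 + b2 + b1 + b0 := by
  by_contra hcon
  push Not at hcon
  have hb2 : 0 ≤ b2 := (abs_nonneg _).trans h2
  have hb1 : 0 ≤ b1 := (abs_nonneg _).trans h1
  have hb0 : 0 ≤ b0 := (abs_nonneg _).trans h0
  obtain ⟨a, ha⟩ : ∃ a, a = |W| := ⟨_, rfl⟩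
  rw [← ha] at hcon
  have ha1 : 1 < a := by linarith
  have e : a ^ 4 = |a2 * W ^ 2 + a1 * W + a0| := by
    have : W ^ 4 = -(a2 * W ^ 2 + a1 * W + a0) := by linarith
    rw [ha, ← abs_pow, this, abs_neg]
  have le : |a2 * W ^ 2 + a1 * W + a0| ≤ b2 * a ^ 2 + b1 * a + b0 := by
    calc |a2 * W ^ 2 + a1 * W + a0| ≤ |a2 * W ^ 2| + |a1 * W| + |a0| := abs_add_three _ _ _
      _ = |a2| * a ^ 2 + |a1| * a + |a0| := by rw [abs_mul, abs_mul, abs_pow, ha]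
      _ ≤ b2 * a ^ 2 + b1 * a + b0 := by gcongr
  have h3 : 0 < a ^ 3 := by positivity
  have e2 : a ^ 2 ≤ a ^ 3 := by nlinarith [sq_nonneg a]
  have e1 : a ≤ a ^ 3 := by nlinarith [sq_nonneg a]
  have e0 : 1 ≤ a ^ 3 := by nlinarith [sq_nonneg a]
  have s2 : b2 * a ^ 2 ≤ b2 * a ^ 3 := mul_le_mul_of_nonneg_left e2 hb2
  have s1 : b1 * a ≤ b1 * a ^ 3 := mul_le_mul_of_nonneg_left e1 hb1
  have s0 : b0 ≤ b0 * a ^ 3 := le_mul_of_one_le_right hb0 e0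
  have s : (b2 + b1 + b0) * a ^ 3 < a * a ^ 3 := by
    apply mul_lt_mul_of_pos_right _ h3
    linarith
  nlinarith

/-- Truncation of a polynomial below degree `n`. -/
noncomputable def tr (n : ℕ) (p : ℚ[X]) : ℚ[X] := ∑ i ∈ Finset.range n, monomial i (p.coeff i)

lemma coeff_tr (n : ℕ) (p : ℚ[X]) (d : ℕ) : (tr n p).coeff d = if d < n then p.coeff d else 0 := by
  simp only [tr, finsetSum_coeff, coeff_monomial]
  split_ifs with h
  · rw [Finset.sum_eq_single d]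
    · simp
    · intro b _ hb; simp [hb]
    · intro hd; exact absurd (Finset.mem_range.mpr h) hd
  · apply Finset.sum_eq_zero
    intro i hi
    have : i ≠ d := fun e => h (e ▸ Finset.mem_range.mp hi)
    simp [this]

lemma natDegree_tr_le (n : ℕ) (p : ℚ[X]) : (tr (n + 1) p).natDegree ≤ n := by
  rw [natDegree_le_iff_coeff_eq_zero]
  intro N hN
  rw [coeff_tr, if_neg (by omega)]

lemma X_pow_dvd_sub_tr (n m : ℕ) (p : ℚ[X]) (h : ∀ d, n ≤ d → d < m → p.coeff d = 0) :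
    X ^ m ∣ p - tr n p := by
  rw [X_pow_dvd_iff]
  intro d hd
  rw [coeff_sub, coeff_tr]
  split_ifs with h1
  · simp
  · rw [h d (by omega) hd]; simp


/-- A nonzero polynomial of degree `≤ 30` satisfying thirty linear conditions. -/
lemma exists_p3 (w B : ℚ[X]) : ∃ p : ℚ[X], p ≠ 0 ∧ p.natDegree ≤ 30 ∧
    (∀ i, 41 ≤ i → i ≤ 60 → (p * w).coeff i = 0) ∧
    (∀ i, 51 ≤ i → i ≤ 60 → (p * B).coeff i = 0) := by
  let c1 : ℕ → (degreeLT ℚ 31 →ₗ[ℚ] ℚ) := fun j =>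
    (lcoeff ℚ j).comp ((LinearMap.mulRight ℚ w).comp (degreeLT ℚ 31).subtype)
  let c2 : ℕ → (degreeLT ℚ 31 →ₗ[ℚ] ℚ) := fun j =>
    (lcoeff ℚ j).comp ((LinearMap.mulRight ℚ B).comp (degreeLT ℚ 31).subtype)
  let f : degreeLT ℚ 31 →ₗ[ℚ] (Fin 30 → ℚ) :=
    LinearMap.pi fun i : Fin 30 => if (i : ℕ) < 20 then c1 (41 + i) else c2 (31 + i)
  have hfin : FiniteDimensional ℚ (degreeLT ℚ 31) :=
    LinearEquiv.finiteDimensional (degreeLTEquiv ℚ 31).symm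
  have hrank : Module.finrank ℚ (Fin 30 → ℚ) < Module.finrank ℚ (degreeLT ℚ 31) := by
    rw [(degreeLTEquiv ℚ 31).finrank_eq]
    simp
  have hker := LinearMap.ker_ne_bot_of_finrank_lt (f := f) hrank
  obtain ⟨x, hxker, hx0⟩ := (Submodule.ne_bot_iff _).mp hker
  have hxp : (x : ℚ[X]) ≠ 0 := fun h => hx0 (Subtype.ext h)
  have hfx : f x = 0 := LinearMap.mem_ker.mp hxker
  refine ⟨(x : ℚ[X]), hxp, ?_, ?_, ?_⟩
  · have hdeg : (x : ℚ[X]).degree < 31 := mem_degreeLT.mp x.2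
    have h31 : (x : ℚ[X]).natDegree < 31 := (natDegree_lt_iff_degree_lt hxp).mpr hdeg
    omega
  · intro i h1 h2
    have hi : i - 41 < 30 := by omega
    have := congrFun hfx ⟨i - 41, hi⟩
    simp only [f, LinearMap.pi_apply, Pi.zero_apply] at this
    rw [if_pos (show i - 41 < 20 by omega)] at this
    simp only [c1, LinearMap.comp_apply, Submodule.subtype_apply, LinearMap.mulRight_apply,
      lcoeff_apply] at this
    rwa [show 41 + (i - 41) = i by omega] at this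
  · intro i h1 h2
    have hi : i - 31 < 30 := by omega
    have := congrFun hfx ⟨i - 31, hi⟩
    simp only [f, LinearMap.pi_apply, Pi.zero_apply] at this
    rw [if_neg (show ¬ (i - 31 < 20) by omega)] at this
    simp only [c2, LinearMap.comp_apply, Submodule.subtype_apply, LinearMap.mulRight_apply,
      lcoeff_apply] at this
    rwa [show 31 + (i - 31) = i by omega] at this


/-- The analytic core of Runge's method (in the variable `t = 1 / k`): every integral point with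
large `k` lies on the truncated rational branch or on an auxiliary cubic. -/
theorem core (A2 A1 A0 : ℚ[X]) (Z0 : ℚ)
    (hroot : Z0 ^ 4 + A2.coeff 0 * Z0 ^ 2 + A1.coeff 0 * Z0 + A0.coeff 0 = 0)
    (hsimple : 4 * Z0 ^ 3 + 2 * A2.coeff 0 * Z0 + A1.coeff 0 ≠ 0) :
    ∃ (wlo p3 p2 p1 p0 : ℚ[X]), wlo.natDegree ≤ 10 ∧ p3 ≠ 0 ∧ p3.natDegree ≤ 30 ∧
      p2.natDegree ≤ 40 ∧ p1.natDegree ≤ 50 ∧ p0.natDegree ≤ 60 ∧
      ∀ᶠ k : ℕ in Filter.atTop, ∀ Z : ℤ, ∀ W : ℚ, W = (Z : ℚ) / (k : ℚ) ^ 10 →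
        W ^ 4 + A2.eval (1 / (k : ℚ)) * W ^ 2 + A1.eval (1 / (k : ℚ)) * W
          + A0.eval (1 / (k : ℚ)) = 0 →
        (W = wlo.eval (1 / (k : ℚ)) ∨
          p3.eval (1 / (k : ℚ)) * W ^ 3 + p2.eval (1 / (k : ℚ)) * W ^ 2
            + p1.eval (1 / (k : ℚ)) * W + p0.eval (1 / (k : ℚ)) = 0) := by
  obtain ⟨w, hw0, ρ, hρ⟩ := hensel A2 A1 A0 Z0 hroot hsimple 71
  obtain ⟨whi, hwhi⟩ : X ^ 11 ∣ w - tr 11 w :=
    X_pow_dvd_sub_tr 11 11 w (fun d h1 h2 => by omega)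
  obtain ⟨wlo, hwlo⟩ : ∃ wlo, wlo = tr 11 w := ⟨_, rfl⟩
  obtain ⟨B1, hB1⟩ : ∃ B1 : ℚ[X], B1 = w ^ 2 + A2 := ⟨_, rfl⟩
  obtain ⟨B0, hB0⟩ : ∃ B0 : ℚ[X], B0 = w ^ 3 + A2 * w + A1 := ⟨_, rfl⟩
  obtain ⟨p3, hp3, hdeg3, hc2, hc1⟩ := exists_p3 w B1
  obtain ⟨τ2, hτ2⟩ : X ^ 61 ∣ p3 * w - tr 41 (p3 * w) :=
    X_pow_dvd_sub_tr 41 61 _ (fun d h1 h2 => hc2 d h1 (by omega))
  obtain ⟨τ1, hτ1⟩ : X ^ 61 ∣ p3 * B1 - tr 51 (p3 * B1) :=
    X_pow_dvd_sub_tr 51 61 _ (fun d h1 h2 => hc1 d h1 (by omega))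
  obtain ⟨τ0, hτ0⟩ : X ^ 61 ∣ p3 * B0 - tr 61 (p3 * B0) :=
    X_pow_dvd_sub_tr 61 61 _ (fun d h1 h2 => by omega)
  obtain ⟨p2, hp2⟩ : ∃ p2, p2 = tr 41 (p3 * w) := ⟨_, rfl⟩
  obtain ⟨p1, hp1⟩ : ∃ p1, p1 = tr 51 (p3 * B1) := ⟨_, rfl⟩
  obtain ⟨p0, hp0⟩ : ∃ p0, p0 = tr 61 (p3 * B0) := ⟨_, rfl⟩
  rw [← hwlo] at hwhi
  rw [← hp2] at hτ2
  rw [← hp1] at hτ1
  rw [← hp0] at hτ0
  have hdlo : wlo.natDegree ≤ 10 := hwlo ▸ natDegree_tr_le 10 w
  have hd2 : p2.natDegree ≤ 40 := hp2 ▸ natDegree_tr_le 40 _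
  have hd1 : p1.natDegree ≤ 50 := hp1 ▸ natDegree_tr_le 50 _
  have hd0 : p0.natDegree ≤ 60 := hp0 ▸ natDegree_tr_le 60 _
  obtain ⟨D0, hD0, hI0⟩ := int_scaled wlo
  obtain ⟨E3, hE3, hJ3⟩ := int_scaled p3
  obtain ⟨E2, hE2, hJ2⟩ := int_scaled p2
  obtain ⟨E1, hE1, hJ1⟩ := int_scaled p1
  obtain ⟨E0, hE0, hJ0⟩ := int_scaled p0
  obtain ⟨Bd, hBd⟩ : ∃ Bd : ℚ, Bd = 1 + l1 A2 + l1 A1 + l1 A0 := ⟨_, rfl⟩
  obtain ⟨K, hK⟩ : ∃ K : ℚ, K = l1 p3 * l1 ρ + (l1 τ2 * Bd ^ 2 + l1 τ1 * Bd + l1 τ0) := ⟨_, rfl⟩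
  have hBd0 : 0 ≤ Bd := by
    rw [hBd]; have := l1_nonneg A2; have := l1_nonneg A1; have := l1_nonneg A0; linarith
  refine ⟨wlo, p3, p2, p1, p0, hdlo, hp3, hdeg3, hd2, hd1, hd0, ?_⟩
  have ev1 : ∀ᶠ k : ℕ in Filter.atTop, (D0 : ℚ) * (1 + l1 whi) < (k : ℚ) :=
    tendsto_natCast_atTop_atTop.eventually_gt_atTop _
  have ev2 : ∀ᶠ k : ℕ in Filter.atTop, ((E3 : ℚ) * E2 * E1 * E0) * K < (k : ℚ) :=
    tendsto_natCast_atTop_atTop.eventually_gt_atTop _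
  filter_upwards [Filter.eventually_ge_atTop 1, ev1, ev2] with k hk1 hk2 hk3
  intro Z W hW hQ
  have hkpos : (0 : ℚ) < (k : ℚ) := by exact_mod_cast hk1
  have hk0 : (k : ℚ) ≠ 0 := hkpos.ne'
  obtain ⟨t, ht⟩ : ∃ t : ℚ, t = 1 / (k : ℚ) := ⟨_, rfl⟩
  rw [← ht] at hQ ⊢
  have ht0 : 0 < t := by rw [ht]; positivity
  have ht1 : t ≤ 1 := by
    rw [ht, div_le_one hkpos]; exact_mod_cast hk1
  have htk : t * (k : ℚ) = 1 := by rw [ht]; field_simp
  have hWB : |W| ≤ Bd := by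
    rw [hBd]
    exact root_bound (abs_eval_le_l1 A2 ht0.le ht1) (abs_eval_le_l1 A1 ht0.le ht1)
      (abs_eval_le_l1 A0 ht0.le ht1) hQ
  obtain ⟨wv, hwv⟩ : ∃ wv : ℚ, wv = w.eval t := ⟨_, rfl⟩
  obtain ⟨Cv, hCv⟩ : ∃ Cv : ℚ, Cv = W ^ 3 + wv * W ^ 2 + B1.eval t * W + B0.eval t := ⟨_, rfl⟩
  have hGw : wv ^ 4 + A2.eval t * wv ^ 2 + A1.eval t * wv + A0.eval t = t ^ 72 * ρ.eval t := by
    have := congrArg (eval t) hρ
    simp only [G, eval_add, eval_mul, eval_pow, eval_X] at this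
    rw [← hwv] at this
    exact this
  have hB1v : B1.eval t = wv ^ 2 + A2.eval t := by
    rw [hB1, hwv]; simp only [eval_add, eval_pow]
  have hB0v : B0.eval t = wv ^ 3 + A2.eval t * wv + A1.eval t := by
    rw [hB0, hwv]; simp only [eval_add, eval_mul, eval_pow]
  have hfac : (W - wv) * Cv = -(t ^ 72 * ρ.eval t) := by
    rw [hCv, hB1v, hB0v]
    linear_combination hQ - hGw
  have hρb : |ρ.eval t| ≤ l1 ρ := abs_eval_le_l1 ρ ht0.le ht1
  by_cases hcase : |W - wv| ≤ t ^ 11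
  · left
    have hwdiff : wv - wlo.eval t = t ^ 11 * whi.eval t := by
      have := congrArg (eval t) hwhi
      simp only [eval_sub, eval_mul, eval_pow, eval_X] at this
      rw [hwv]; exact this
    have hb1 : |W - wlo.eval t| ≤ t ^ 11 * (1 + l1 whi) := by
      have e : W - wlo.eval t = (W - wv) + t ^ 11 * whi.eval t := by rw [← hwdiff]; ring
      rw [e]
      calc |(W - wv) + t ^ 11 * whi.eval t| ≤ |W - wv| + |t ^ 11 * whi.eval t| := abs_add_le _ _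
        _ ≤ t ^ 11 + t ^ 11 * l1 whi := by
            rw [abs_mul, abs_of_pos (pow_pos ht0 11)]
            have := abs_eval_le_l1 whi ht0.le ht1
            have h11 : 0 ≤ t ^ 11 := (pow_pos ht0 11).le
            nlinarith
        _ = t ^ 11 * (1 + l1 whi) := by ring
    obtain ⟨z0, hz0⟩ := hI0 10 hdlo k hk1
    rw [← ht] at hz0
    have hint : ((D0 * Z - z0 : ℤ) : ℚ) = (D0 : ℚ) * (k : ℚ) ^ 10 * (W - wlo.eval t) := by
      push_cast
      rw [← hz0, hW]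
      field_simp
    have hkt : (k : ℚ) ^ 10 * t ^ 11 = t := by
      calc (k : ℚ) ^ 10 * t ^ 11 = (t * (k : ℚ)) ^ 10 * t := by ring
        _ = t := by rw [htk]; ring
    have habs : |((D0 * Z - z0 : ℤ) : ℚ)| < 1 := by
      rw [hint, abs_mul, abs_mul, abs_of_nonneg (by positivity : (0 : ℚ) ≤ (D0 : ℚ)),
        abs_of_pos (pow_pos hkpos 10)]
      have hD0k : (0 : ℚ) ≤ (D0 : ℚ) * (k : ℚ) ^ 10 := by positivity
      calc (D0 : ℚ) * (k : ℚ) ^ 10 * |W - wlo.eval t|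
          ≤ (D0 : ℚ) * (k : ℚ) ^ 10 * (t ^ 11 * (1 + l1 whi)) :=
            mul_le_mul_of_nonneg_left hb1 hD0k
        _ = (D0 : ℚ) * (1 + l1 whi) * ((k : ℚ) ^ 10 * t ^ 11) := by ring
        _ = (D0 : ℚ) * (1 + l1 whi) * t := by rw [hkt]
        _ < 1 := by
            rw [ht, mul_one_div, div_lt_one hkpos]
            exact hk2
    have hzero : D0 * Z - z0 = 0 := by
      have h' : |(D0 * Z - z0 : ℤ)| < 1 := by exact_mod_cast habs
      exact Int.abs_lt_one_iff.mp h'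
    have h0 : (D0 : ℚ) * (k : ℚ) ^ 10 * (W - wlo.eval t) = 0 := by
      rw [← hint, hzero]; simp
    have hD0' : (D0 : ℚ) ≠ 0 := by positivity
    have h1 : W - wlo.eval t = 0 := by
      rcases mul_eq_zero.mp h0 with h | h
      · rcases mul_eq_zero.mp h with h | h
        · exact absurd h hD0'
        · exact absurd h (pow_ne_zero 10 hk0)
      · exact h
    linarith
  · right
    push Not at hcase
    have hCb : |Cv| ≤ t ^ 61 * l1 ρ := by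
      have h1 : |W - wv| * |Cv| ≤ t ^ 72 * l1 ρ := by
        rw [← abs_mul, hfac, abs_neg, abs_mul, abs_of_pos (pow_pos ht0 72)]
        exact mul_le_mul_of_nonneg_left hρb (pow_pos ht0 72).le
      have h2 : t ^ 11 * |Cv| ≤ t ^ 11 * (t ^ 61 * l1 ρ) := by
        calc t ^ 11 * |Cv| ≤ |W - wv| * |Cv| :=
              mul_le_mul_of_nonneg_right hcase.le (abs_nonneg _)
          _ ≤ t ^ 72 * l1 ρ := h1
          _ = t ^ 11 * (t ^ 61 * l1 ρ) := by ring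
      exact le_of_mul_le_mul_left h2 (pow_pos ht0 11)
    have e2 : p3.eval t * wv = p2.eval t + t ^ 61 * τ2.eval t := by
      have := congrArg (eval t) hτ2
      simp only [eval_sub, eval_mul, eval_pow, eval_X] at this
      rw [hwv]; linarith
    have e1 : p3.eval t * B1.eval t = p1.eval t + t ^ 61 * τ1.eval t := by
      have := congrArg (eval t) hτ1
      simp only [eval_sub, eval_mul, eval_pow, eval_X] at this
      linarith
    have e0 : p3.eval t * B0.eval t = p0.eval t + t ^ 61 * τ0.eval t := by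
      have := congrArg (eval t) hτ0
      simp only [eval_sub, eval_mul, eval_pow, eval_X] at this
      linarith
    obtain ⟨Pv, hPv⟩ : ∃ Pv : ℚ, Pv = p3.eval t * W ^ 3 + p2.eval t * W ^ 2
        + p1.eval t * W + p0.eval t := ⟨_, rfl⟩
    rw [← hPv]
    have hPid : Pv = p3.eval t * Cv - t ^ 61 * (τ2.eval t * W ^ 2 + τ1.eval t * W + τ0.eval t) := by
      rw [hPv, hCv]
      linear_combination (-W ^ 2) * e2 - W * e1 - e0
    have hPb : |Pv| ≤ t ^ 61 * K := by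
      have hp3b := abs_eval_le_l1 p3 ht0.le ht1
      have hτ2b := abs_eval_le_l1 τ2 ht0.le ht1
      have hτ1b := abs_eval_le_l1 τ1 ht0.le ht1
      have hτ0b := abs_eval_le_l1 τ0 ht0.le ht1
      have h61 : 0 < t ^ 61 := pow_pos ht0 61
      have hA : |p3.eval t * Cv| ≤ l1 p3 * (t ^ 61 * l1 ρ) := by
        rw [abs_mul]
        exact mul_le_mul hp3b hCb (abs_nonneg _) (l1_nonneg _)
      have hW2 : |W ^ 2| ≤ Bd ^ 2 := by
        rw [abs_pow]; exact pow_le_pow_left₀ (abs_nonneg _) hWB 2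
      have hB : |τ2.eval t * W ^ 2 + τ1.eval t * W + τ0.eval t|
          ≤ l1 τ2 * Bd ^ 2 + l1 τ1 * Bd + l1 τ0 := by
        calc |τ2.eval t * W ^ 2 + τ1.eval t * W + τ0.eval t|
            ≤ |τ2.eval t * W ^ 2| + |τ1.eval t * W| + |τ0.eval t| := abs_add_three _ _ _
          _ ≤ l1 τ2 * Bd ^ 2 + l1 τ1 * Bd + l1 τ0 := by
              rw [abs_mul, abs_mul]
              have i1 := mul_le_mul hτ2b hW2 (abs_nonneg _) (l1_nonneg _)
              have i2 := mul_le_mul hτ1b hWB (abs_nonneg _) (l1_nonneg _)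
              linarith
      rw [hPid, hK]
      calc |p3.eval t * Cv - t ^ 61 * (τ2.eval t * W ^ 2 + τ1.eval t * W + τ0.eval t)|
          ≤ |p3.eval t * Cv| + |t ^ 61 * (τ2.eval t * W ^ 2 + τ1.eval t * W + τ0.eval t)| :=
            abs_sub _ _
        _ ≤ l1 p3 * (t ^ 61 * l1 ρ) + t ^ 61 * (l1 τ2 * Bd ^ 2 + l1 τ1 * Bd + l1 τ0) := by
            have hT : |t ^ 61 * (τ2.eval t * W ^ 2 + τ1.eval t * W + τ0.eval t)|
                = t ^ 61 * |τ2.eval t * W ^ 2 + τ1.eval t * W + τ0.eval t| := by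
              rw [abs_mul, abs_of_pos h61]
            have := mul_le_mul_of_nonneg_left hB h61.le
            linarith
        _ = t ^ 61 * (l1 p3 * l1 ρ + (l1 τ2 * Bd ^ 2 + l1 τ1 * Bd + l1 τ0)) := by ring
    obtain ⟨z3, hz3⟩ := hJ3 30 hdeg3 k hk1
    obtain ⟨z2, hz2⟩ := hJ2 40 hd2 k hk1
    obtain ⟨z1, hz1⟩ := hJ1 50 hd1 k hk1
    obtain ⟨z0, hz0⟩ := hJ0 60 hd0 k hk1
    rw [← ht] at hz3 hz2 hz1 hz0
    have hint : ((E2 * E1 * E0 * z3 * Z ^ 3 + E3 * E1 * E0 * z2 * Z ^ 2 + E3 * E2 * E0 * z1 * Z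
        + E3 * E2 * E1 * z0 : ℤ) : ℚ) = ((E3 : ℚ) * E2 * E1 * E0) * (k : ℚ) ^ 60 * Pv := by
      push_cast
      rw [← hz3, ← hz2, ← hz1, ← hz0, hPv, hW]
      field_simp
    have hkt : (k : ℚ) ^ 60 * t ^ 61 = t := by
      calc (k : ℚ) ^ 60 * t ^ 61 = (t * (k : ℚ)) ^ 60 * t := by ring
        _ = t := by rw [htk]; ring
    have hEpos : (0 : ℚ) < (E3 : ℚ) * E2 * E1 * E0 := by positivity
    have habs : |((E2 * E1 * E0 * z3 * Z ^ 3 + E3 * E1 * E0 * z2 * Z ^ 2 + E3 * E2 * E0 * z1 * Z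
        + E3 * E2 * E1 * z0 : ℤ) : ℚ)| < 1 := by
      rw [hint, abs_mul, abs_mul, abs_of_pos hEpos, abs_of_pos (pow_pos hkpos 60)]
      have hEk : (0 : ℚ) ≤ (E3 : ℚ) * E2 * E1 * E0 * (k : ℚ) ^ 60 := by positivity
      calc (E3 : ℚ) * E2 * E1 * E0 * (k : ℚ) ^ 60 * |Pv|
          ≤ (E3 : ℚ) * E2 * E1 * E0 * (k : ℚ) ^ 60 * (t ^ 61 * K) :=
            mul_le_mul_of_nonneg_left hPb hEk
        _ = (E3 : ℚ) * E2 * E1 * E0 * K * ((k : ℚ) ^ 60 * t ^ 61) := by ring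
        _ = (E3 : ℚ) * E2 * E1 * E0 * K * t := by rw [hkt]
        _ < 1 := by
            rw [ht, mul_one_div, div_lt_one hkpos]
            exact hk3
    have hzero : E2 * E1 * E0 * z3 * Z ^ 3 + E3 * E1 * E0 * z2 * Z ^ 2 + E3 * E2 * E0 * z1 * Z
        + E3 * E2 * E1 * z0 = 0 := by
      have h' : |(E2 * E1 * E0 * z3 * Z ^ 3 + E3 * E1 * E0 * z2 * Z ^ 2 + E3 * E2 * E0 * z1 * Z
        + E3 * E2 * E1 * z0 : ℤ)| < 1 := by exact_mod_cast habs
      exact Int.abs_lt_one_iff.mp h'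
    have h0 : ((E3 : ℚ) * E2 * E1 * E0) * (k : ℚ) ^ 60 * Pv = 0 := by
      rw [← hint, hzero]; simp
    rcases mul_eq_zero.mp h0 with h | h
    · rcases mul_eq_zero.mp h with h | h
      · exact absurd h hEpos.ne'
      · exact absurd h (pow_ne_zero 60 hk0)
    · exact h


/-- Evaluation of a reflected polynomial. -/
lemma eval_reflect (p : ℚ[X]) (n : ℕ) (hn : p.natDegree ≤ n) {x : ℚ} (hx : x ≠ 0) :
    (reflect n p).eval x = x ^ n * p.eval (1 / x) := by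
  have hx' : (1 / x : ℚ) ≠ 0 := one_div_ne_zero hx
  let _ : Invertible (1 / x : ℚ) := invertibleOfNonzero hx'
  have h := eval₂_reflect_mul_pow (RingHom.id ℚ) (1 / x) n p hn
  rw [invOf_eq_inv, one_div, inv_inv] at h
  simp only [eval₂_id] at h
  rw [one_div, ← h]
  have hxn : x ^ n * x⁻¹ ^ n = 1 := by rw [← mul_pow, mul_inv_cancel₀ hx, one_pow]
  calc eval x (reflect n p) = eval x (reflect n p) * (x ^ n * x⁻¹ ^ n) := by rw [hxn, mul_one]
    _ = x ^ n * (eval x (reflect n p) * x⁻¹ ^ n) := by ring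

/-- **Runge's theorem** for a quartic family `Z⁴ + q₂(k) Z² + q₁(k) Z + q₀(k)` (weights
`20, 30, 40`) which is irreducible over `ℚ(k)` and whose leading quartic has a simple rational
root: for all large natural `k` there is no integer root. -/
theorem runge4 (q2 q1 q0 : ℤ[X]) (h2 : q2.natDegree ≤ 20) (h1 : q1.natDegree ≤ 30)
    (h0 : q0.natDegree ≤ 40) (Z0 : ℚ)
    (hroot : Z0 ^ 4 + (q2.coeff 20 : ℚ) * Z0 ^ 2 + (q1.coeff 30 : ℚ) * Z0
      + (q0.coeff 40 : ℚ) = 0)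
    (hsimple : 4 * Z0 ^ 3 + 2 * (q2.coeff 20 : ℚ) * Z0 + (q1.coeff 30 : ℚ) ≠ 0)
    (hirr : Irreducible (X ^ 4 + C (q2.map (Int.castRingHom ℚ)) * X ^ 2
      + C (q1.map (Int.castRingHom ℚ)) * X + C (q0.map (Int.castRingHom ℚ)) : (ℚ[X])[X])) :
    ∃ k0 : ℕ, ∀ k : ℕ, k0 ≤ k → ∀ Z : ℤ,
      Z ^ 4 + q2.eval (k : ℤ) * Z ^ 2 + q1.eval (k : ℤ) * Z + q0.eval (k : ℤ) ≠ 0 := by
  obtain ⟨Q2, hQ2⟩ : ∃ Q2 : ℚ[X], Q2 = q2.map (Int.castRingHom ℚ) := ⟨_, rfl⟩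
  obtain ⟨Q1, hQ1⟩ : ∃ Q1 : ℚ[X], Q1 = q1.map (Int.castRingHom ℚ) := ⟨_, rfl⟩
  obtain ⟨Q0, hQ0⟩ : ∃ Q0 : ℚ[X], Q0 = q0.map (Int.castRingHom ℚ) := ⟨_, rfl⟩
  rw [← hQ2, ← hQ1, ← hQ0] at hirr
  have hQ2d : Q2.natDegree ≤ 20 := hQ2 ▸ (natDegree_map_le).trans h2
  have hQ1d : Q1.natDegree ≤ 30 := hQ1 ▸ (natDegree_map_le).trans h1
  have hQ0d : Q0.natDegree ≤ 40 := hQ0 ▸ (natDegree_map_le).trans h0
  have hA2 : (reflect 20 Q2).coeff 0 = (q2.coeff 20 : ℚ) := by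
    rw [coeff_reflect, revAt_le (Nat.zero_le 20), hQ2, coeff_map]; simp
  have hA1 : (reflect 30 Q1).coeff 0 = (q1.coeff 30 : ℚ) := by
    rw [coeff_reflect, revAt_le (Nat.zero_le 30), hQ1, coeff_map]; simp
  have hA0 : (reflect 40 Q0).coeff 0 = (q0.coeff 40 : ℚ) := by
    rw [coeff_reflect, revAt_le (Nat.zero_le 40), hQ0, coeff_map]; simp
  obtain ⟨wlo, p3, p2, p1, p0, hdlo, hp3, hd3, hd2, hd1, hd0, hev⟩ :=
    core (reflect 20 Q2) (reflect 30 Q1) (reflect 40 Q0) Z0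
      (by rw [hA2, hA1, hA0]; exact hroot) (by rw [hA2, hA1]; exact hsimple)
  -- the bivariate quartic
  obtain ⟨Qb, hQb⟩ : ∃ Qb : (ℚ[X])[X], Qb = X ^ 4 + C Q2 * X ^ 2 + C Q1 * X + C Q0 := ⟨_, rfl⟩
  rw [← hQb] at hirr
  have hQb' : Qb = X ^ 4 + (C Q2 * X ^ 2 + C Q1 * X + C Q0) := by rw [hQb]; ring
  have hlow : (C Q2 * X ^ 2 + C Q1 * X + C Q0 : (ℚ[X])[X]).degree < ((4 : ℕ) : WithBot ℕ) :=
    lt_of_le_of_lt degree_quadratic_le (by norm_num)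
  have hQbmonic : Qb.Monic := hQb' ▸ monic_X_pow_add hlow
  have hQbdeg : Qb.degree = ((4 : ℕ) : WithBot ℕ) := by
    rw [hQb', degree_add_eq_left_of_degree_lt (by rw [degree_X_pow]; exact hlow), degree_X_pow]
  have hQbnat : Qb.natDegree = 4 := natDegree_eq_of_degree_eq_some hQbdeg
  -- case A: the truncated branch is not a root
  obtain ⟨Ra, hRa⟩ : ∃ Ra : ℚ[X], Ra = (reflect 10 wlo) ^ 4 + Q2 * (reflect 10 wlo) ^ 2
      + Q1 * (reflect 10 wlo) + Q0 := ⟨_, rfl⟩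
  have hRa0 : Ra ≠ 0 := by
    intro h
    have hr : IsRoot Qb (reflect 10 wlo) := by
      rw [IsRoot, hQb]
      simp only [eval_add, eval_mul, eval_pow, eval_X, eval_C]
      rw [← hRa]; exact h
    have hdeg := degree_eq_one_of_irreducible_of_root hirr hr
    rw [hQbdeg] at hdeg
    norm_num at hdeg
  -- case B: the auxiliary cubic
  obtain ⟨Pb, hPb⟩ : ∃ Pb : (ℚ[X])[X], Pb = C (reflect 30 p3) * X ^ 3 + C (reflect 40 p2) * X ^ 2
      + C (reflect 50 p1) * X + C (reflect 60 p0) := ⟨_, rfl⟩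
  have hP3 : reflect 30 p3 ≠ 0 := by
    rw [Ne, reflect_eq_zero_iff]; exact hp3
  have hPbnat : Pb.natDegree ≤ 3 := hPb ▸ natDegree_cubic_le
  obtain ⟨R, hR⟩ : ∃ R : ℚ[X], R = resultant Qb Pb 4 3 := ⟨_, rfl⟩
  have hR0 : R ≠ 0 := by
    intro hR0
    have hφ : Function.Injective (algebraMap ℚ[X] (FractionRing ℚ[X])) :=
      IsFractionRing.injective ℚ[X] (FractionRing ℚ[X])
    have hirrK : Irreducible (Qb.map (algebraMap ℚ[X] (FractionRing ℚ[X]))) :=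
      (Monic.irreducible_iff_irreducible_map_fraction_map hQbmonic).mp hirr
    have hdQ : (Qb.map (algebraMap ℚ[X] (FractionRing ℚ[X]))).natDegree = 4 := by
      rw [hQbmonic.natDegree_map, hQbnat]
    have hPmap : Pb.map (algebraMap ℚ[X] (FractionRing ℚ[X]))
        = C (algebraMap ℚ[X] (FractionRing ℚ[X]) (reflect 30 p3)) * X ^ 3
          + C (algebraMap ℚ[X] (FractionRing ℚ[X]) (reflect 40 p2)) * X ^ 2
          + C (algebraMap ℚ[X] (FractionRing ℚ[X]) (reflect 50 p1)) * X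
          + C (algebraMap ℚ[X] (FractionRing ℚ[X]) (reflect 60 p0)) := by
      rw [hPb]
      simp only [Polynomial.map_add, Polynomial.map_mul, Polynomial.map_pow, map_C, map_X]
    have hlead : algebraMap ℚ[X] (FractionRing ℚ[X]) (reflect 30 p3) ≠ 0 :=
      (map_ne_zero_iff _ hφ).mpr hP3
    have hdP : (Pb.map (algebraMap ℚ[X] (FractionRing ℚ[X]))).natDegree = 3 := by
      rw [hPmap]; exact natDegree_cubic hlead
    have hPne : Pb.map (algebraMap ℚ[X] (FractionRing ℚ[X])) ≠ 0 := by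
      intro h0
      rw [h0] at hdP
      simp at hdP
    have hres : resultant (Qb.map (algebraMap ℚ[X] (FractionRing ℚ[X])))
        (Pb.map (algebraMap ℚ[X] (FractionRing ℚ[X]))) = 0 := by
      rw [hdQ, hdP, resultant_map_map, ← hR, hR0, map_zero]
    rw [resultant_eq_zero_iff] at hres
    apply hres.2
    rw [hirrK.coprime_iff_not_dvd]
    intro hdvd
    have := natDegree_le_of_dvd hdvd hPne
    rw [hdQ, hdP] at this
    omega
  obtain ⟨a, b, -, -, hab⟩ := exists_mul_add_mul_eq_C_resultant Qb Pb (m := 4) (n := 3)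
    hQbnat.le hPbnat (Or.inl (by norm_num))
  rw [← hR] at hab
  have evA := eventually_eval_natCast_ne_zero hRa0
  have evB := eventually_eval_natCast_ne_zero hR0
  obtain ⟨k0, hk0⟩ := Filter.eventually_atTop.mp
    (hev.and (evA.and (evB.and (Filter.eventually_ge_atTop 1))))
  refine ⟨k0, fun k hk Z hZ => ?_⟩
  obtain ⟨hcore, hA, hB, hk1⟩ := hk0 k hk
  have hkpos : (0 : ℚ) < (k : ℚ) := by exact_mod_cast hk1
  have hkne : (k : ℚ) ≠ 0 := hkpos.ne'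
  have hk' : (1 / (k : ℚ)) ≠ 0 := one_div_ne_zero hkne
  -- the rational form of the equation
  have e2 : ((q2.eval (k : ℤ) : ℤ) : ℚ) = Q2.eval (k : ℚ) := by
    rw [hQ2]
    have := eval_intCast_map (Int.castRingHom ℚ) q2 (k : ℤ)
    rw [Int.cast_natCast] at this
    exact this.symm
  have e1 : ((q1.eval (k : ℤ) : ℤ) : ℚ) = Q1.eval (k : ℚ) := by
    rw [hQ1]
    have := eval_intCast_map (Int.castRingHom ℚ) q1 (k : ℤ)
    rw [Int.cast_natCast] at this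
    exact this.symm
  have e0 : ((q0.eval (k : ℤ) : ℤ) : ℚ) = Q0.eval (k : ℚ) := by
    rw [hQ0]
    have := eval_intCast_map (Int.castRingHom ℚ) q0 (k : ℤ)
    rw [Int.cast_natCast] at this
    exact this.symm
  have hZq : (Z : ℚ) ^ 4 + Q2.eval (k : ℚ) * (Z : ℚ) ^ 2 + Q1.eval (k : ℚ) * (Z : ℚ)
      + Q0.eval (k : ℚ) = 0 := by
    rw [← e2, ← e1, ← e0]; exact_mod_cast hZ
  have r2 : (reflect 20 Q2).eval (1 / (k : ℚ)) = (1 / (k : ℚ)) ^ 20 * Q2.eval (k : ℚ) := by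
    rw [eval_reflect Q2 20 hQ2d hk', one_div_one_div]
  have r1 : (reflect 30 Q1).eval (1 / (k : ℚ)) = (1 / (k : ℚ)) ^ 30 * Q1.eval (k : ℚ) := by
    rw [eval_reflect Q1 30 hQ1d hk', one_div_one_div]
  have r0 : (reflect 40 Q0).eval (1 / (k : ℚ)) = (1 / (k : ℚ)) ^ 40 * Q0.eval (k : ℚ) := by
    rw [eval_reflect Q0 40 hQ0d hk', one_div_one_div]
  obtain ⟨W, hW⟩ : ∃ W : ℚ, W = (Z : ℚ) / (k : ℚ) ^ 10 := ⟨_, rfl⟩
  have hZW : (Z : ℚ) = (k : ℚ) ^ 10 * W := by rw [hW]; field_simp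
  have hWeq : W ^ 4 + (reflect 20 Q2).eval (1 / (k : ℚ)) * W ^ 2
      + (reflect 30 Q1).eval (1 / (k : ℚ)) * W + (reflect 40 Q0).eval (1 / (k : ℚ)) = 0 := by
    rw [r2, r1, r0]
    have hk40 : (k : ℚ) ^ 40 ≠ 0 := pow_ne_zero 40 hkne
    have : (k : ℚ) ^ 40 * (W ^ 4 + (1 / (k : ℚ)) ^ 20 * Q2.eval (k : ℚ) * W ^ 2
        + (1 / (k : ℚ)) ^ 30 * Q1.eval (k : ℚ) * W + (1 / (k : ℚ)) ^ 40 * Q0.eval (k : ℚ)) = 0 := by
      rw [← hZq, hZW]
      field_simp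
    exact (mul_eq_zero.mp this).resolve_left hk40
  rcases hcore Z W hW hWeq with hcA | hcB
  · -- case A
    apply hA
    have hPi : (reflect 10 wlo).eval (k : ℚ) = (Z : ℚ) := by
      rw [eval_reflect wlo 10 hdlo hkne, ← hcA, hZW]
    rw [hRa]
    simp only [eval_add, eval_mul, eval_pow]
    rw [hPi]
    exact hZq
  · -- case B
    apply hB
    have s3 : (reflect 30 p3).eval (k : ℚ) = (k : ℚ) ^ 30 * p3.eval (1 / (k : ℚ)) :=
      eval_reflect p3 30 hd3 hkne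
    have s2 : (reflect 40 p2).eval (k : ℚ) = (k : ℚ) ^ 40 * p2.eval (1 / (k : ℚ)) :=
      eval_reflect p2 40 hd2 hkne
    have s1 : (reflect 50 p1).eval (k : ℚ) = (k : ℚ) ^ 50 * p1.eval (1 / (k : ℚ)) :=
      eval_reflect p1 50 hd1 hkne
    have s0 : (reflect 60 p0).eval (k : ℚ) = (k : ℚ) ^ 60 * p0.eval (1 / (k : ℚ)) :=
      eval_reflect p0 60 hd0 hkne
    have hev2 := congrArg (eval₂ (evalRingHom (k : ℚ)) (Z : ℚ)) hab
    rw [hQb, hPb] at hev2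
    simp only [eval₂_add, eval₂_mul, eval₂_pow, eval₂_X, eval₂_C, coe_evalRingHom] at hev2
    rw [hZq, s3, s2, s1, s0, hZW] at hev2
    rw [← hev2]
    linear_combination ((k : ℚ) ^ 60 * eval₂ (evalRingHom (k : ℚ)) ((k : ℚ) ^ 10 * W) b) * hcB

end Fermat.Agent.S52.Runge
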