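import Mathlib

set_option autoImplicit false

/-!
# Runge's method for the 3-division quartic (helper file for S52, brick Irr3)

Elementary replacement for Hilbert irreducibility in the 3-5 switch.
-/

namespace Fermat.Agent.S52.RungeCore

open Polynomial

/-! ### Elementary polynomial facts -/

/-- Polynomial growth bound. -/
lemma eval_abs_le (p : ℚ[X]) (d : ℕ) (hd : p.natDegree ≤ d) :
    ∃ c : ℚ, 0 ≤ c ∧ ∀ k : ℚ, 1 ≤ k → |p.eval k| ≤ c * k ^ d := by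
  refine ⟨∑ i ∈ Finset.range (d + 1), |p.coeff i|, Finset.sum_nonneg fun i _ => abs_nonneg _, ?_⟩
  intro k hk
  rw [eval_eq_sum_range' (Nat.lt_succ_of_le hd), Finset.sum_mul]
  refine (Finset.abs_sum_le_sum_abs _ _).trans (Finset.sum_le_sum fun i hi => ?_)
  rw [abs_mul, abs_pow, abs_of_nonneg (by linarith : (0:ℚ) ≤ k)]
  have hi' : i ≤ d := Nat.lt_succ_iff.mp (Finset.mem_range.mp hi)
  exact mul_le_mul_of_nonneg_left (pow_le_pow_right₀ hk hi') (abs_nonneg _)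

/-- Values of a rational polynomial at integers have bounded denominators. -/
lemma exists_den (p : ℚ[X]) :
    ∃ D : ℕ, 0 < D ∧ ∀ k : ℤ, ∃ m : ℤ, (D : ℚ) * p.eval (k : ℚ) = m := by
  induction p using Polynomial.induction_on' with
  | add p q hp hq =>
    obtain ⟨D1, h1, H1⟩ := hp
    obtain ⟨D2, h2, H2⟩ := hq
    refine ⟨D1 * D2, Nat.mul_pos h1 h2, fun k => ?_⟩
    obtain ⟨m1, e1⟩ := H1 k
    obtain ⟨m2, e2⟩ := H2 k
    refine ⟨D2 * m1 + D1 * m2, ?_⟩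
    push_cast
    rw [eval_add]
    linear_combination (D2 : ℚ) * e1 + (D1 : ℚ) * e2
  | monomial n a =>
    refine ⟨a.den, a.den_pos, fun k => ⟨a.num * k ^ n, ?_⟩⟩
    rw [eval_monomial]
    push_cast
    have h : (a.den : ℚ) * a = a.num := by
      rw [mul_comm]; exact Rat.mul_den_eq_num a
    linear_combination (k:ℚ)^n * h

/-- A nonzero polynomial has no large integer roots. -/
lemma no_large_root (d : ℚ[X]) (hd : d ≠ 0) :
    ∃ b : ℤ, ∀ k : ℤ, b ≤ k → d.eval (k : ℚ) ≠ 0 := by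
  have hfin : {k : ℤ | d.eval (k : ℚ) = 0}.Finite := by
    have h1 : {x : ℚ | d.IsRoot x}.Finite := finite_setOfPred_isRoot hd
    exact (h1.preimage (Int.cast_injective.injOn)).subset (fun k hk => hk)
  obtain ⟨b, hb⟩ := hfin.bddAbove
  refine ⟨b + 1, fun k hk h0 => ?_⟩
  have := hb h0
  omega

/-- A rational root of the monic integral quartic is an integer. -/
lemma int_root (a b : ℤ) (z : ℚ)
    (h : z ^ 4 - 6 * a * z ^ 2 - 8 * b * z - 3 * (a : ℚ) ^ 2 = 0) : ∃ m : ℤ, z = m := by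
  have hmon : (X ^ 4 - (C (6 * a) * X ^ 2 + C (8 * b) * X + C (3 * a ^ 2)) : ℤ[X]).Monic := by
    apply monic_X_pow_sub
    exact lt_of_le_of_lt degree_quadratic_le (by norm_num)
  have hr : aeval z (X ^ 4 - (C (6 * a) * X ^ 2 + C (8 * b) * X + C (3 * a ^ 2)) : ℤ[X]) = 0 := by
    rw [aeval_def]
    simp only [eval₂_sub, eval₂_add, eval₂_mul, eval₂_pow, eval₂_X, eval₂_C]
    simp only [eq_intCast]
    push_cast
    linear_combination h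
  obtain ⟨m, hm⟩ := isInteger_of_is_root_of_monic hmon hr
  exact ⟨m, hm.symm⟩

/-- Size of the roots of the quartic. -/
lemma root_bound (cA cB : ℚ) (hcA : 0 ≤ cA) (hcB : 0 ≤ cB) (κ a b z : ℚ) (hκ : 1 ≤ κ)
    (ha : |a| ≤ cA * κ ^ 2) (hb : |b| ≤ cB * κ ^ 3)
    (h : z ^ 4 - 6 * a * z ^ 2 - 8 * b * z - 3 * a ^ 2 = 0) :
    |z| ≤ (6 * cA + 8 * cB + 3 * cA ^ 2 + 1) * κ := by
  by_contra hcon
  rw [not_le] at hcon
  have hκ0 : (0:ℚ) ≤ κ := by linarith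
  have hL : (1:ℚ) ≤ 6 * cA + 8 * cB + 3 * cA ^ 2 + 1 := by nlinarith [sq_nonneg cA]
  have hy : κ ≤ |z| := by nlinarith
  have hy0 : 0 < |z| := by linarith
  have e : z ^ 4 = 6 * a * z ^ 2 + 8 * b * z + 3 * a ^ 2 := by linear_combination h
  have h4 : |z| ^ 4 ≤ 6 * |a| * |z| ^ 2 + 8 * |b| * |z| + 3 * |a| ^ 2 := by
    have e1 : |z| ^ 4 = |z ^ 4| := by rw [abs_pow]
    rw [e1, e]
    refine (abs_add_three _ _ _).trans (le_of_eq ?_)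
    simp only [abs_mul, abs_pow]
    norm_num
  have hy3 : 0 ≤ |z| ^ 3 := by positivity
  have t1 : |a| * |z| ^ 2 ≤ cA * (κ * |z| ^ 3) := by
    have h1 : |a| * |z| ^ 2 ≤ cA * κ ^ 2 * |z| ^ 2 := mul_le_mul_of_nonneg_right ha (by positivity)
    have h2 : κ ^ 2 * |z| ^ 2 ≤ κ * |z| ^ 3 := by
      nlinarith [mul_nonneg (mul_nonneg hκ0 (sq_nonneg |z|)) (sub_nonneg.mpr hy)]
    nlinarith [mul_le_mul_of_nonneg_left h2 hcA]
  have t2 : |b| * |z| ≤ cB * (κ * |z| ^ 3) := by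
    have h1 : |b| * |z| ≤ cB * κ ^ 3 * |z| := mul_le_mul_of_nonneg_right hb hy0.le
    have h2 : κ ^ 3 * |z| ≤ κ * |z| ^ 3 := by
      have h3 : κ ^ 2 ≤ |z| ^ 2 := pow_le_pow_left₀ hκ0 hy 2
      nlinarith [mul_nonneg (mul_nonneg hκ0 hy0.le) (sub_nonneg.mpr h3)]
    nlinarith [mul_le_mul_of_nonneg_left h2 hcB]
  have t3 : |a| ^ 2 ≤ cA ^ 2 * (κ * |z| ^ 3) := by
    have h0 : 0 ≤ cA * κ ^ 2 := by positivity
    have h1 : |a| ^ 2 ≤ (cA * κ ^ 2) ^ 2 := pow_le_pow_left₀ (abs_nonneg a) ha 2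
    have h2 : κ ^ 4 ≤ κ * |z| ^ 3 := by
      have h3 : κ ^ 3 ≤ |z| ^ 3 := pow_le_pow_left₀ hκ0 hy 3
      nlinarith [mul_nonneg hκ0 (sub_nonneg.mpr h3)]
    nlinarith [mul_le_mul_of_nonneg_left h2 (sq_nonneg cA)]
  have h5 : (6 * cA + 8 * cB + 3 * cA ^ 2 + 1) * κ * |z| ^ 3 < |z| * |z| ^ 3 :=
    mul_lt_mul_of_pos_right hcon (pow_pos hy0 3)
  have h6 : 0 < κ * |z| ^ 3 := by positivity
  nlinarith

/-- `p` has degree at most `d` and its coefficient in degree `d` is `c`. -/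
def Top (p : ℚ[X]) (d : ℕ) (c : ℚ) : Prop := p.natDegree ≤ d ∧ p.coeff d = c

lemma Top.mul {p q : ℚ[X]} {d e : ℕ} {c c' : ℚ} (hp : Top p d c) (hq : Top q e c') :
    Top (p * q) (d + e) (c * c') :=
  ⟨natDegree_mul_le_of_le hp.1 hq.1, by rw [coeff_mul_add_eq_of_natDegree_le hp.1 hq.1, hp.2, hq.2]⟩

lemma Top.pow {p : ℚ[X]} {d : ℕ} {c : ℚ} (hp : Top p d c) (m : ℕ) :
    Top (p ^ m) (m * d) (c ^ m) :=
  ⟨natDegree_pow_le_of_le m hp.1, by rw [coeff_pow_of_natDegree_le hp.1, hp.2]⟩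

lemma Top.add {p q : ℚ[X]} {d : ℕ} {c c' : ℚ} (hp : Top p d c) (hq : Top q d c') :
    Top (p + q) d (c + c') :=
  ⟨natDegree_add_le_of_degree_le hp.1 hq.1, by rw [coeff_add, hp.2, hq.2]⟩

lemma Top.sub {p q : ℚ[X]} {d : ℕ} {c c' : ℚ} (hp : Top p d c) (hq : Top q d c') :
    Top (p - q) d (c - c') :=
  ⟨(natDegree_sub_le_of_le hp.1 hq.1).trans (by simp), by rw [coeff_sub, hp.2, hq.2]⟩

lemma Top.X_pow (n : ℕ) : Top (X ^ n : ℚ[X]) n 1 := ⟨natDegree_X_pow_le n, by simp⟩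

lemma Top.C (a : ℚ) : Top (C a) 0 a := ⟨by simp, by simp⟩

lemma Top.of_lt {p : ℚ[X]} {d e : ℕ} (hp : p.natDegree ≤ d) (h : d < e) : Top p e 0 :=
  ⟨hp.trans h.le, coeff_eq_zero_of_natDegree_lt (lt_of_le_of_lt hp h)⟩

lemma Top.natDegree_le {p : ℚ[X]} {d : ℕ} (hp : Top p (d + 1) 0) : p.natDegree ≤ d := by
  rw [natDegree_le_iff_coeff_eq_zero]
  intro N hN
  rcases Nat.lt_or_ge (d + 1) N with h | h
  · exact coeff_eq_zero_of_natDegree_lt (lt_of_le_of_lt hp.1 h)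
  · have hNd : N = d + 1 := by omega
    rw [hNd]; exact hp.2

lemma Top.congr {p : ℚ[X]} {d e : ℕ} {c c' : ℚ} (hp : Top p d c) (hd : d = e) (hc : c = c') :
    Top p e c' := by
  subst hd hc; exact hp

/-- The approximation defect. -/
noncomputable def Rp (A B u : ℚ[X]) (n : ℕ) : ℚ[X] :=
  (X ^ 10 * u) ^ 4 - C 6 * (A * (X ^ n) ^ 2 * (X ^ 10 * u) ^ 2)
    - C 8 * (B * (X ^ n) ^ 3 * (X ^ 10 * u)) - C 3 * (A ^ 2 * (X ^ n) ^ 4)

lemma top_Rp {A B u : ℚ[X]} {n : ℕ} {c4 c6 z0 : ℚ} (hA : Top A 20 c4) (hB : Top B 30 c6)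
    (hu : Top u n z0) :
    Top (Rp A B u n) (4 * n + 40) (z0 ^ 4 - 6 * c4 * z0 ^ 2 - 8 * c6 * z0 - 3 * c4 ^ 2) := by
  have hw : Top (X ^ 10 * u) (10 + n) (1 * z0) := (Top.X_pow 10).mul hu
  have hK : Top (X ^ n : ℚ[X]) n 1 := Top.X_pow n
  have t1 : Top ((X ^ 10 * u) ^ 4) (4 * n + 40) (z0 ^ 4) :=
    (hw.pow 4).congr (by ring) (by ring)
  have t2 : Top (C 6 * (A * (X ^ n) ^ 2 * (X ^ 10 * u) ^ 2)) (4 * n + 40) (6 * c4 * z0 ^ 2) :=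
    ((Top.C 6).mul ((hA.mul (hK.pow 2)).mul (hw.pow 2))).congr (by ring) (by ring)
  have t3 : Top (C 8 * (B * (X ^ n) ^ 3 * (X ^ 10 * u))) (4 * n + 40) (8 * c6 * z0) :=
    ((Top.C 8).mul ((hB.mul (hK.pow 3)).mul hw)).congr (by ring) (by ring)
  have t4 : Top (C 3 * (A ^ 2 * (X ^ n) ^ 4)) (4 * n + 40) (3 * c4 ^ 2) :=
    ((Top.C 3).mul ((hA.pow 2).mul (hK.pow 4))).congr (by ring) (by ring)
  exact ((t1.sub t2).sub t3).sub t4

/-- Newton iteration in reversed form: approximate polynomial roots of the quartic. -/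
lemma newton {A B : ℚ[X]} {c4 c6 z0 : ℚ} (hA : Top A 20 c4) (hB : Top B 30 c6)
    (h0 : z0 ^ 4 - 6 * c4 * z0 ^ 2 - 8 * c6 * z0 - 3 * c4 ^ 2 = 0)
    (h1 : 4 * z0 ^ 3 - 12 * c4 * z0 - 8 * c6 ≠ 0) (n : ℕ) :
    ∃ u : ℚ[X], Top u n z0 ∧ (Rp A B u n).natDegree ≤ 3 * n + 39 := by
  induction n with
  | zero =>
    refine ⟨C z0, Top.C z0, ?_⟩
    have h := top_Rp hA hB (Top.C z0)
    rw [h0] at h
    exact Top.natDegree_le h
  | succ n ih =>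
    obtain ⟨u, hu, hR⟩ := ih
    set ρ := (Rp A B u n).coeff (3 * n + 39) with hρ
    set δ := 4 * z0 ^ 3 - 12 * c4 * z0 - 8 * c6 with hδ
    set c := -ρ / δ with hc
    have hu' : Top (X * u + C c) (n + 1) z0 := by
      have a1 : Top (X ^ 1 * u) (1 + n) (1 * z0) := (Top.X_pow 1).mul hu
      have a2 : Top (C c) (1 + n) 0 := Top.of_lt (Top.C c).1 (by omega)
      have a3 := a1.add a2
      rw [pow_one] at a3
      exact a3.congr (by ring) (by ring)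
    refine ⟨X * u + C c, hu', ?_⟩
    have hw : Top (X ^ 10 * u) (10 + n) (1 * z0) := (Top.X_pow 10).mul hu
    have hK : Top (X ^ n : ℚ[X]) n 1 := Top.X_pow n
    have hRt : Top (Rp A B u n) (3 * n + 39) ρ := ⟨hR, rfl⟩
    -- the expansion
    have e : Rp A B (X * u + C c) (n + 1) =
        X ^ 4 * Rp A B u n
        + C c * X ^ 13 * (C 4 * (X ^ 10 * u) ^ 3 - C 12 * (A * (X ^ n) ^ 2 * (X ^ 10 * u))
            - C 8 * (B * (X ^ n) ^ 3))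
        + (C c ^ 2 * X ^ 22 * (C 6 * (X ^ 10 * u) ^ 2 - C 6 * (A * (X ^ n) ^ 2))
        + C 4 * C c ^ 3 * X ^ 31 * (X ^ 10 * u) + C c ^ 4 * X ^ 40) := by
      have e6 : (C 6 : ℚ[X]) = 6 := rfl
      have e8 : (C 8 : ℚ[X]) = 8 := rfl
      have e3 : (C 3 : ℚ[X]) = 3 := rfl
      have e4 : (C 4 : ℚ[X]) = 4 := rfl
      have e12 : (C 12 : ℚ[X]) = 12 := rfl
      simp only [Rp, e6, e8, e3, e4, e12, pow_succ]
      ring
    rw [e]
    have s1 : Top (X ^ 4 * Rp A B u n) (3 * n + 43) ρ :=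
      ((Top.X_pow 4).mul hRt).congr (by ring) (by ring)
    have g1 : Top (C 4 * (X ^ 10 * u) ^ 3) (3 * n + 30) (4 * z0 ^ 3) :=
      ((Top.C 4).mul (hw.pow 3)).congr (by ring) (by ring)
    have g2 : Top (C 12 * (A * (X ^ n) ^ 2 * (X ^ 10 * u))) (3 * n + 30) (12 * c4 * z0) :=
      ((Top.C 12).mul ((hA.mul (hK.pow 2)).mul hw)).congr (by ring) (by ring)
    have g3 : Top (C 8 * (B * (X ^ n) ^ 3)) (3 * n + 30) (8 * c6) :=
      ((Top.C 8).mul (hB.mul (hK.pow 3))).congr (by ring) (by ring)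
    have s2 : Top (C c * X ^ 13 * (C 4 * (X ^ 10 * u) ^ 3 - C 12 * (A * (X ^ n) ^ 2 * (X ^ 10 * u))
            - C 8 * (B * (X ^ n) ^ 3))) (3 * n + 43) (c * δ) :=
      (((Top.C c).mul (Top.X_pow 13)).mul ((g1.sub g2).sub g3)).congr (by ring) (by rw [hδ]; ring)
    have q1 : Top (C 6 * (X ^ 10 * u) ^ 2) (2 * n + 20) (6 * z0 ^ 2) :=
      ((Top.C 6).mul (hw.pow 2)).congr (by ring) (by ring)
    have q2 : Top (C 6 * (A * (X ^ n) ^ 2)) (2 * n + 20) (6 * c4) :=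
      ((Top.C 6).mul (hA.mul (hK.pow 2))).congr (by ring) (by ring)
    have s3 : Top (C c ^ 2 * X ^ 22 * (C 6 * (X ^ 10 * u) ^ 2 - C 6 * (A * (X ^ n) ^ 2)))
        (3 * n + 43) 0 := by
      have := ((((Top.C c).pow 2).mul (Top.X_pow 22)).mul (q1.sub q2)).1
      exact Top.of_lt this (by omega)
    have s4 : Top (C 4 * C c ^ 3 * X ^ 31 * (X ^ 10 * u)) (3 * n + 43) 0 := by
      have := ((((Top.C 4).mul ((Top.C c).pow 3)).mul (Top.X_pow 31)).mul hw).1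
      exact Top.of_lt this (by omega)
    have s5 : Top (C c ^ 4 * X ^ 40) (3 * n + 43) 0 := by
      have := (((Top.C c).pow 4).mul (Top.X_pow 40)).1
      exact Top.of_lt this (by omega)
    have hsum := (s1.add s2).add ((s3.add s4).add s5)
    have hzero : ρ + c * δ + (0 + 0 + 0) = 0 := by
      rw [hc]; field_simp; ring
    rw [hzero] at hsum
    have := Top.natDegree_le (d := 3 * n + 42) hsum
    omega

/-- Division with remainder by `X ^ N`. -/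
lemma split_X_pow (p : ℚ[X]) (N : ℕ) : ∃ q r : ℚ[X], p = X ^ N * q + r ∧
    (∀ j, N ≤ j → r.coeff j = 0) ∧ (∀ j, j < N → r.coeff j = p.coeff j) := by
  refine ⟨p /ₘ X ^ N, p %ₘ X ^ N, ?_, ?_, ?_⟩
  · rw [add_comm]; exact (modByMonic_add_div p (X ^ N)).symm
  · intro j hj
    apply coeff_eq_zero_of_degree_lt
    refine lt_of_lt_of_le (degree_modByMonic_lt p (monic_X_pow N)) ?_
    rw [degree_X_pow]
    exact_mod_cast hj
  · intro j hj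
    have h := congrArg (fun f => f.coeff j) (modByMonic_add_div p (X ^ N))
    simp only [coeff_add] at h
    rw [coeff_X_pow_mul', if_neg (not_le.mpr hj), add_zero] at h
    exact h

/-- Linear algebra: a nonzero multiplier killing 30 prescribed coefficients. -/
lemma exists_p3 (E2 E1 : ℚ[X]) : ∃ p : ℚ[X], p ≠ 0 ∧ p.natDegree ≤ 30 ∧
    (∀ j, 50 ≤ j → j < 70 → (p * E2).coeff j = 0) ∧
    (∀ j, 130 ≤ j → j < 140 → (p * E1).coeff j = 0) := by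
  classical
  let f : degreeLT ℚ 31 →ₗ[ℚ] (Fin 30 → ℚ) := LinearMap.pi fun i =>
    if (i : ℕ) < 20 then (lcoeff ℚ (50 + i)) ∘ₗ (LinearMap.mulRight ℚ E2) ∘ₗ (degreeLT ℚ 31).subtype
    else (lcoeff ℚ (130 + (i - 20))) ∘ₗ (LinearMap.mulRight ℚ E1) ∘ₗ (degreeLT ℚ 31).subtype
  have : FiniteDimensional ℚ (degreeLT ℚ 31) :=
    LinearEquiv.finiteDimensional (degreeLTEquiv ℚ 31).symm
  have hfr : Module.finrank ℚ (Fin 30 → ℚ) < Module.finrank ℚ (degreeLT ℚ 31) := by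
    rw [(degreeLTEquiv ℚ 31).finrank_eq, Module.finrank_fin_fun, Module.finrank_fin_fun]
    norm_num
  have hker := LinearMap.ker_ne_bot_of_finrank_lt (f := f) hfr
  obtain ⟨x, hx, hx0⟩ := (Submodule.ne_bot_iff _).mp hker
  obtain ⟨p, hp⟩ := x
  rw [LinearMap.mem_ker] at hx
  refine ⟨p, fun h => hx0 (Subtype.ext h), ?_, ?_, ?_⟩
  · rw [mem_degreeLT] at hp
    have := natDegree_lt_iff_degree_lt (p := p) (n := 31)
    by_cases hp0 : p = 0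
    · simp [hp0]
    · exact Nat.lt_succ_iff.mp ((natDegree_lt_iff_degree_lt hp0).mpr hp)
  · intro j h1 h2
    have h := congrFun hx (⟨j - 50, by omega⟩ : Fin 30)
    simp only [f, LinearMap.pi_apply, Pi.zero_apply] at h
    rw [if_pos (by omega)] at h
    simp only [LinearMap.comp_apply, Submodule.subtype_apply, LinearMap.mulRight_apply,
      lcoeff_apply] at h
    have hj : 50 + (j - 50) = j := by omega
    rw [hj] at h
    exact h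
  · intro j h1 h2
    have h := congrFun hx (⟨j - 130 + 20, by omega⟩ : Fin 30)
    simp only [f, LinearMap.pi_apply, Pi.zero_apply] at h
    rw [if_neg (by omega)] at h
    simp only [LinearMap.comp_apply, Submodule.subtype_apply, LinearMap.mulRight_apply,
      lcoeff_apply] at h
    have hj : 130 + (j - 130 + 20 - 20) = j := by omega
    rw [hj] at h
    exact h

lemma abs_sub_le_add (a b : ℚ) : |a - b| ≤ |a| + |b| := by
  rcases abs_cases (a - b) with ⟨h, _⟩ | ⟨h, _⟩ <;> rcases abs_cases a with ⟨h1, _⟩ | ⟨h1, _⟩ <;>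
    rcases abs_cases b with ⟨h2, _⟩ | ⟨h2, _⟩ <;> linarith

/-- The numerical core of Runge's argument. -/
lemma core_bound (k z K w Pi r Rk p3 P2 P1 P0 r2 r1 r0 a b D0 cr cR c3 c2 c1 c0 B0 : ℚ)
    (hk : 1 ≤ k) (hK : K = k ^ 70)
    (hQ : z ^ 4 - 6 * a * z ^ 2 - 8 * b * z - 3 * a ^ 2 = 0)
    (hR : Rk = w ^ 4 - 6 * (a * K ^ 2 * w ^ 2) - 8 * (b * K ^ 3 * w) - 3 * (a ^ 2 * K ^ 4))
    (hw : w = K * Pi + r)
    (h2 : p3 * w = K * P2 + r2)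
    (h1 : p3 * (w ^ 2 - 6 * (K ^ 2 * a)) = K ^ 2 * P1 + r1)
    (h0 : p3 * (w ^ 3 - 6 * (K ^ 2 * a * w) - 8 * (K ^ 3 * b)) = K ^ 3 * P0 + r0)
    (hz : |z| ≤ B0 * k ^ 10)
    (hr : |r| ≤ cr * k ^ 69) (hRk : |Rk| ≤ cR * k ^ 249) (hp3 : |p3| ≤ c3 * k ^ 30)
    (hr2 : |r2| ≤ c2 * k ^ 49) (hr1 : |r1| ≤ c1 * k ^ 129) (hr0 : |r0| ≤ c0 * k ^ 209)
    (hc3 : 0 ≤ c3) (hc2 : 0 ≤ c2) (hc1 : 0 ≤ c1)
    (hD0 : 0 < D0) (hzP : 1 / D0 ≤ |z - Pi|) (hk2 : 2 * D0 * cr ≤ k) :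
    |p3 * z ^ 3 + P2 * z ^ 2 + P1 * z + P0| * k
      ≤ 2 * D0 * cR * c3 + c2 * B0 ^ 2 + c1 * B0 + c0 := by
  obtain ⟨Ch, hCh⟩ : ∃ Ch : ℚ, Ch = K ^ 3 * z ^ 3 + K ^ 2 * w * z ^ 2
      + K * (w ^ 2 - 6 * (K ^ 2 * a)) * z + (w ^ 3 - 6 * (K ^ 2 * a * w) - 8 * (K ^ 3 * b)) :=
    ⟨_, rfl⟩
  obtain ⟨Pv, hPv⟩ : ∃ Pv : ℚ, Pv = p3 * z ^ 3 + P2 * z ^ 2 + P1 * z + P0 := ⟨_, rfl⟩
  rw [← hPv]
  have hk0 : 0 < k := by linarith
  have hKpos : 0 < K := by rw [hK]; positivity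
  have e1 : (K * z - w) * Ch = -Rk := by
    rw [hR, hCh]; linear_combination K ^ 4 * hQ
  have e2 : K * z - w = K * (z - Pi) - r := by rw [hw]; ring
  have low : k ^ 70 / (2 * D0) ≤ |K * z - w| := by
    rw [e2]
    have a1 : K * (1 / D0) ≤ |K * (z - Pi)| := by
      rw [abs_mul, abs_of_pos hKpos]; exact mul_le_mul_of_nonneg_left hzP hKpos.le
    have a2 : |K * (z - Pi)| - |r| ≤ |K * (z - Pi) - r| := abs_sub_abs_le_abs_sub _ _
    have a3 : cr * k ^ 69 ≤ k ^ 70 / (2 * D0) := by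
      rw [le_div_iff₀ (by positivity)]
      have h3 : 2 * D0 * cr * k ^ 69 ≤ k * k ^ 69 := mul_le_mul_of_nonneg_right hk2 (by positivity)
      calc cr * k ^ 69 * (2 * D0) = 2 * D0 * cr * k ^ 69 := by ring
        _ ≤ k * k ^ 69 := h3
        _ = k ^ 70 := by ring
    have a4 : K * (1 / D0) = 2 * (k ^ 70 / (2 * D0)) := by rw [hK]; field_simp
    linarith
  have hCh_le : |Ch| ≤ 2 * D0 * cR * k ^ 179 := by
    have b1 : |K * z - w| * |Ch| = |Rk| := by rw [← abs_mul, e1, abs_neg]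
    have b2 : k ^ 70 / (2 * D0) * |Ch| ≤ cR * k ^ 249 :=
      calc k ^ 70 / (2 * D0) * |Ch| ≤ |K * z - w| * |Ch| :=
            mul_le_mul_of_nonneg_right low (abs_nonneg _)
        _ = |Rk| := b1
        _ ≤ cR * k ^ 249 := hRk
    have b3 : |Ch| = (k ^ 70 / (2 * D0) * |Ch|) * (2 * D0) / k ^ 70 := by field_simp
    rw [b3, div_le_iff₀ (by positivity)]
    calc (k ^ 70 / (2 * D0) * |Ch|) * (2 * D0) ≤ cR * k ^ 249 * (2 * D0) :=
          mul_le_mul_of_nonneg_right b2 (by positivity)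
      _ = 2 * D0 * cR * k ^ 179 * k ^ 70 := by ring
  have e3 : K ^ 3 * Pv = p3 * Ch - K ^ 2 * r2 * z ^ 2 - K * r1 * z - r0 := by
    rw [hCh, hPv]; linear_combination (-K ^ 2 * z ^ 2) * h2 - K * z * h1 - h0
  have c1' : |K ^ 3 * Pv| ≤ |p3 * Ch| + |K ^ 2 * r2 * z ^ 2| + |K * r1 * z| + |r0| := by
    rw [e3]
    have s1 := abs_sub_le_add (p3 * Ch - K ^ 2 * r2 * z ^ 2 - K * r1 * z) r0
    have s2 := abs_sub_le_add (p3 * Ch - K ^ 2 * r2 * z ^ 2) (K * r1 * z)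
    have s3 := abs_sub_le_add (p3 * Ch) (K ^ 2 * r2 * z ^ 2)
    linarith
  have d1 : |p3 * Ch| ≤ 2 * D0 * cR * c3 * k ^ 209 := by
    rw [abs_mul]
    calc |p3| * |Ch| ≤ (c3 * k ^ 30) * (2 * D0 * cR * k ^ 179) :=
          mul_le_mul hp3 hCh_le (abs_nonneg _) (by positivity)
      _ = 2 * D0 * cR * c3 * k ^ 209 := by ring
  have hz2 : |z| ^ 2 ≤ (B0 * k ^ 10) ^ 2 := pow_le_pow_left₀ (abs_nonneg _) hz 2
  have d2 : |K ^ 2 * r2 * z ^ 2| ≤ c2 * B0 ^ 2 * k ^ 209 := by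
    rw [abs_mul, abs_mul, abs_pow, abs_pow, abs_of_pos hKpos, hK]
    calc (k ^ 70) ^ 2 * |r2| * |z| ^ 2 ≤ (k ^ 70) ^ 2 * (c2 * k ^ 49) * (B0 * k ^ 10) ^ 2 :=
          mul_le_mul (mul_le_mul_of_nonneg_left hr2 (by positivity)) hz2 (by positivity)
            (by positivity)
      _ = c2 * B0 ^ 2 * k ^ 209 := by ring
  have d3 : |K * r1 * z| ≤ c1 * B0 * k ^ 209 := by
    rw [abs_mul, abs_mul, abs_of_pos hKpos, hK]
    calc k ^ 70 * |r1| * |z| ≤ k ^ 70 * (c1 * k ^ 129) * (B0 * k ^ 10) :=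
          mul_le_mul (mul_le_mul_of_nonneg_left hr1 (by positivity)) hz (abs_nonneg _)
            (by positivity)
      _ = c1 * B0 * k ^ 209 := by ring
  rw [abs_mul, abs_pow, abs_of_pos hKpos] at c1'
  have hK3 : K ^ 3 = k ^ 210 := by rw [hK]; ring
  rw [hK3] at c1'
  have fin : |Pv| * k * k ^ 209
      ≤ (2 * D0 * cR * c3 + c2 * B0 ^ 2 + c1 * B0 + c0) * k ^ 209 := by
    calc |Pv| * k * k ^ 209 = k ^ 210 * |Pv| := by ring
      _ ≤ |p3 * Ch| + |K ^ 2 * r2 * z ^ 2| + |K * r1 * z| + |r0| := c1'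
      _ ≤ 2 * D0 * cR * c3 * k ^ 209 + c2 * B0 ^ 2 * k ^ 209 + c1 * B0 * k ^ 209
            + c0 * k ^ 209 := by linarith
      _ = (2 * D0 * cR * c3 + c2 * B0 ^ 2 + c1 * B0 + c0) * k ^ 209 := by ring
  exact le_of_mul_le_mul_right fin (by positivity)

/-- **Runge's method for the 3-division quartic.**  Let `A`, `B` be integer polynomials of degrees
at most `20`, `30` with top coefficients `c₄`, `c₆`.  If the limit quartic
`Z⁴ - 6c₄Z² - 8c₆Z - 3c₄²` has a simple rational root, while the quartic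
`Z⁴ - 6A(k)Z² - 8B(k)Z - 3A(k)²` has no polynomial root and is coprime (over `ℚ(k)`) to every
nonzero cubic, then for all large integers `k` the specialised quartic has no rational root. -/
theorem runge (A B : ℤ[X]) (hA : A.natDegree ≤ 20) (hB : B.natDegree ≤ 30) (Z0 : ℚ)
    (hZ0 : Z0 ^ 4 - 6 * (A.coeff 20 : ℚ) * Z0 ^ 2 - 8 * (B.coeff 30 : ℚ) * Z0
      - 3 * (A.coeff 20 : ℚ) ^ 2 = 0)
    (hZ0' : 4 * Z0 ^ 3 - 12 * (A.coeff 20 : ℚ) * Z0 - 8 * (B.coeff 30 : ℚ) ≠ 0)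
    (hG2 : ∀ Zp : ℚ[X], Zp ^ 4 - 6 * (A.map (Int.castRingHom ℚ)) * Zp ^ 2
      - 8 * (B.map (Int.castRingHom ℚ)) * Zp - 3 * (A.map (Int.castRingHom ℚ)) ^ 2 ≠ 0)
    (hCop : ∀ p3 p2 p1 p0 : ℚ[X], p3 ≠ 0 → ∃ d : ℚ[X], d ≠ 0 ∧ ∀ k z : ℚ,
      z ^ 4 - 6 * (A.map (Int.castRingHom ℚ)).eval k * z ^ 2
        - 8 * (B.map (Int.castRingHom ℚ)).eval k * z
        - 3 * (A.map (Int.castRingHom ℚ)).eval k ^ 2 = 0 →
      p3.eval k * z ^ 3 + p2.eval k * z ^ 2 + p1.eval k * z + p0.eval k = 0 → d.eval k = 0) :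
    ∃ k0 : ℤ, ∀ k : ℤ, k0 ≤ k → ∀ z : ℚ,
      z ^ 4 - 6 * ((A.eval k : ℤ) : ℚ) * z ^ 2 - 8 * ((B.eval k : ℤ) : ℚ) * z
        - 3 * ((A.eval k : ℤ) : ℚ) ^ 2 ≠ 0 := by
  obtain ⟨Aq, hAq⟩ : ∃ Aq : ℚ[X], Aq = A.map (Int.castRingHom ℚ) := ⟨_, rfl⟩
  obtain ⟨Bq, hBq⟩ : ∃ Bq : ℚ[X], Bq = B.map (Int.castRingHom ℚ) := ⟨_, rfl⟩
  rw [← hAq, ← hBq] at hG2
  simp only [← hAq, ← hBq] at hCop
  have tA : Top Aq 20 (A.coeff 20) := ⟨by rw [hAq]; exact natDegree_map_le.trans hA, by simp [hAq]⟩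
  have tB : Top Bq 30 (B.coeff 30) := ⟨by rw [hBq]; exact natDegree_map_le.trans hB, by simp [hBq]⟩
  obtain ⟨u, -, hR⟩ := newton tA tB hZ0 hZ0' 70
  obtain ⟨Pi, r, hPi, hr_hi, -⟩ := split_X_pow (X ^ 10 * u) 70
  have hr_deg : r.natDegree ≤ 69 :=
    natDegree_le_iff_coeff_eq_zero.mpr fun N hN => hr_hi N (by omega)
  obtain ⟨p3, hp3, hp3deg, hc2, hc1⟩ :=
    exists_p3 (X ^ 10 * u) ((X ^ 10 * u) ^ 2 - C 6 * ((X ^ 70) ^ 2 * Aq))
  obtain ⟨P2, r2, hP2, hr2_hi, hr2_lo⟩ := split_X_pow (p3 * (X ^ 10 * u)) 70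
  have hr2_deg : r2.natDegree ≤ 49 := by
    refine natDegree_le_iff_coeff_eq_zero.mpr fun N hN => ?_
    rcases Nat.lt_or_ge N 70 with h | h
    · rw [hr2_lo N h]; exact hc2 N (by omega) h
    · exact hr2_hi N h
  obtain ⟨P1, r1, hP1, hr1_hi, hr1_lo⟩ :=
    split_X_pow (p3 * ((X ^ 10 * u) ^ 2 - C 6 * ((X ^ 70) ^ 2 * Aq))) 140
  have hr1_deg : r1.natDegree ≤ 129 := by
    refine natDegree_le_iff_coeff_eq_zero.mpr fun N hN => ?_
    rcases Nat.lt_or_ge N 140 with h | h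
    · rw [hr1_lo N h]; exact hc1 N (by omega) h
    · exact hr1_hi N h
  obtain ⟨P0, r0, hP0, hr0_hi, -⟩ := split_X_pow (p3 * ((X ^ 10 * u) ^ 3
    - C 6 * ((X ^ 70) ^ 2 * Aq * (X ^ 10 * u)) - C 8 * ((X ^ 70) ^ 3 * Bq))) 210
  have hr0_deg : r0.natDegree ≤ 209 :=
    natDegree_le_iff_coeff_eq_zero.mpr fun N hN => hr0_hi N (by omega)
  obtain ⟨cA, hcA, bA⟩ := eval_abs_le Aq 20 tA.1
  obtain ⟨cB, hcB, bB⟩ := eval_abs_le Bq 30 tB.1
  obtain ⟨cr, -, br⟩ := eval_abs_le r 69 hr_deg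
  obtain ⟨cR, -, bR⟩ := eval_abs_le (Rp Aq Bq u 70) 249 hR
  obtain ⟨c3, hc3, b3⟩ := eval_abs_le p3 30 hp3deg
  obtain ⟨c2, hc2', b2⟩ := eval_abs_le r2 49 hr2_deg
  obtain ⟨c1, hc1', b1⟩ := eval_abs_le r1 129 hr1_deg
  obtain ⟨c0, -, b0⟩ := eval_abs_le r0 209 hr0_deg
  obtain ⟨D0, hD0, dPi⟩ := exists_den Pi
  obtain ⟨E3, hE3, d3⟩ := exists_den p3
  obtain ⟨E2, hE2, d2⟩ := exists_den P2
  obtain ⟨E1, hE1, d1⟩ := exists_den P1
  obtain ⟨E0, hE0, d0⟩ := exists_den P0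
  obtain ⟨d, hd, hdz⟩ := hCop p3 P2 P1 P0 hp3
  obtain ⟨bd, hbd⟩ := no_large_root d hd
  obtain ⟨bP, hbP⟩ := no_large_root _ (hG2 Pi)
  obtain ⟨B0, hB0⟩ : ∃ B0 : ℚ, B0 = 6 * cA + 8 * cB + 3 * cA ^ 2 + 1 := ⟨_, rfl⟩
  obtain ⟨Ct, hCt⟩ : ∃ Ct : ℚ, Ct = 2 * D0 * cR * c3 + c2 * B0 ^ 2 + c1 * B0 + c0 := ⟨_, rfl⟩
  obtain ⟨E, hE⟩ : ∃ E : ℚ, E = (E3 : ℚ) * E2 * E1 * E0 := ⟨_, rfl⟩
  have hEpos : 0 < E := by rw [hE]; positivity
  refine ⟨max (max 1 ⌈2 * (D0 : ℚ) * cr⌉) (max (⌈Ct * E⌉ + 1) (max bd bP)), ?_⟩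
  intro k hk z hz
  have hk1 : (1 : ℤ) ≤ k := le_trans (le_trans (le_max_left _ _) (le_max_left _ _)) hk
  have hk2' : ⌈2 * (D0 : ℚ) * cr⌉ ≤ k :=
    le_trans (le_trans (le_max_right _ _) (le_max_left _ _)) hk
  have hk3' : ⌈Ct * E⌉ + 1 ≤ k := le_trans (le_trans (le_max_left _ _) (le_max_right _ _)) hk
  have hk4 : bd ≤ k :=
    le_trans (le_trans (le_trans (le_max_left _ _) (le_max_right _ _)) (le_max_right _ _)) hk
  have hk5 : bP ≤ k :=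
    le_trans (le_trans (le_trans (le_max_right _ _) (le_max_right _ _)) (le_max_right _ _)) hk
  have hkq : (1 : ℚ) ≤ (k : ℚ) := by exact_mod_cast hk1
  have hk2 : 2 * (D0 : ℚ) * cr ≤ (k : ℚ) := (Int.le_ceil _).trans (by exact_mod_cast hk2')
  have hk3 : Ct * E < (k : ℚ) := by
    have h1 : Ct * E ≤ (⌈Ct * E⌉ : ℚ) := Int.le_ceil _
    have h2 : ((⌈Ct * E⌉ + 1 : ℤ) : ℚ) ≤ (k : ℚ) := by exact_mod_cast hk3'
    push_cast at h2
    linarith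
  have eA : Aq.eval (k : ℚ) = ((A.eval k : ℤ) : ℚ) := by
    rw [hAq, eval_intCast_map]; rfl
  have eB : Bq.eval (k : ℚ) = ((B.eval k : ℤ) : ℚ) := by
    rw [hBq, eval_intCast_map]; rfl
  obtain ⟨m, rfl⟩ := int_root _ _ z hz
  rw [← eA, ← eB] at hz
  by_cases hm : (m : ℚ) = Pi.eval (k : ℚ)
  · apply hbP k hk5
    simp only [eval_sub, eval_mul, eval_pow, eval_ofNat]
    rw [← hm]; exact hz
  · have hzP : 1 / (D0 : ℚ) ≤ |(m : ℚ) - Pi.eval (k : ℚ)| := by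
      obtain ⟨j, hj⟩ := dPi k
      have hD0q : (0 : ℚ) < D0 := by exact_mod_cast hD0
      have hne : (D0 : ℤ) * m - j ≠ 0 := by
        intro h0
        apply hm
        have h1 : (((D0 : ℤ) * m - j : ℤ) : ℚ) = 0 := by rw [h0]; simp
        push_cast at h1
        have h2 : (D0 : ℚ) * m = D0 * Pi.eval (k : ℚ) := by rw [hj]; linarith
        exact mul_left_cancel₀ hD0q.ne' h2
      have h1 : (1 : ℚ) ≤ |(((D0 : ℤ) * m - j : ℤ) : ℚ)| := by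
        rw [← Int.cast_abs]; exact_mod_cast Int.one_le_abs hne
      have h2 : (((D0 : ℤ) * m - j : ℤ) : ℚ) = D0 * ((m : ℚ) - Pi.eval (k : ℚ)) := by
        push_cast; rw [mul_sub, hj]
      rw [h2, abs_mul, abs_of_pos hD0q] at h1
      rw [div_le_iff₀ hD0q]; linarith
    have vPi := congrArg (eval (k : ℚ)) hPi
    have vP2 := congrArg (eval (k : ℚ)) hP2
    have vP1 := congrArg (eval (k : ℚ)) hP1
    have vP0 := congrArg (eval (k : ℚ)) hP0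
    simp only [eval_sub, eval_add, eval_mul, eval_pow, eval_X, eval_C] at vPi vP2 vP1 vP0
    have vR : (Rp Aq Bq u 70).eval (k : ℚ) = ((k : ℚ) ^ 10 * u.eval (k : ℚ)) ^ 4
        - 6 * (Aq.eval (k : ℚ) * ((k : ℚ) ^ 70) ^ 2 * ((k : ℚ) ^ 10 * u.eval (k : ℚ)) ^ 2)
        - 8 * (Bq.eval (k : ℚ) * ((k : ℚ) ^ 70) ^ 3 * ((k : ℚ) ^ 10 * u.eval (k : ℚ)))
        - 3 * (Aq.eval (k : ℚ) ^ 2 * ((k : ℚ) ^ 70) ^ 4) := by
      simp only [Rp, eval_sub, eval_mul, eval_pow, eval_X, eval_C]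
    have ha : |Aq.eval (k : ℚ)| ≤ cA * ((k : ℚ) ^ 10) ^ 2 := by
      have h := bA k hkq
      rwa [show ((k : ℚ) ^ 10) ^ 2 = (k : ℚ) ^ 20 by ring]
    have hb : |Bq.eval (k : ℚ)| ≤ cB * ((k : ℚ) ^ 10) ^ 3 := by
      have h := bB k hkq
      rwa [show ((k : ℚ) ^ 10) ^ 3 = (k : ℚ) ^ 30 by ring]
    have hzb : |(m : ℚ)| ≤ B0 * (k : ℚ) ^ 10 := by
      rw [hB0]
      exact root_bound cA cB hcA hcB ((k : ℚ) ^ 10) _ _ _ (one_le_pow₀ hkq) ha hb hz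
    have key := core_bound (k : ℚ) m ((k : ℚ) ^ 70) ((k : ℚ) ^ 10 * u.eval (k : ℚ))
      (Pi.eval (k : ℚ)) (r.eval (k : ℚ)) ((Rp Aq Bq u 70).eval (k : ℚ)) (p3.eval (k : ℚ))
      (P2.eval (k : ℚ)) (P1.eval (k : ℚ)) (P0.eval (k : ℚ)) (r2.eval (k : ℚ)) (r1.eval (k : ℚ))
      (r0.eval (k : ℚ)) (Aq.eval (k : ℚ)) (Bq.eval (k : ℚ)) D0 cr cR c3 c2 c1 c0 B0 hkq rfl hz vR
      vPi vP2 (by linear_combination vP1) (by linear_combination vP0) hzb (br k hkq) (bR k hkq)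
      (b3 k hkq) (b2 k hkq) (b1 k hkq) (b0 k hkq) hc3 hc2' hc1' (by exact_mod_cast hD0) hzP hk2
    rw [← hCt] at key
    have hPv : p3.eval (k : ℚ) * (m : ℚ) ^ 3 + P2.eval (k : ℚ) * (m : ℚ) ^ 2
        + P1.eval (k : ℚ) * (m : ℚ) + P0.eval (k : ℚ) = 0 := by
      by_contra hne
      obtain ⟨j3, e3⟩ := d3 k
      obtain ⟨j2, e2⟩ := d2 k
      obtain ⟨j1, e1⟩ := d1 k
      obtain ⟨j0, e0⟩ := d0 k
      have hE3q : (0 : ℚ) < E3 := by exact_mod_cast hE3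
      have hE2q : (0 : ℚ) < E2 := by exact_mod_cast hE2
      have hE1q : (0 : ℚ) < E1 := by exact_mod_cast hE1
      have hE0q : (0 : ℚ) < E0 := by exact_mod_cast hE0
      have hint : E * (p3.eval (k : ℚ) * (m : ℚ) ^ 3 + P2.eval (k : ℚ) * (m : ℚ) ^ 2
          + P1.eval (k : ℚ) * (m : ℚ) + P0.eval (k : ℚ))
          = (((E2 : ℤ) * E1 * E0 * j3 * m ^ 3 + (E3 : ℤ) * E1 * E0 * j2 * m ^ 2
            + (E3 : ℤ) * E2 * E0 * j1 * m + (E3 : ℤ) * E2 * E1 * j0 : ℤ) : ℚ) := by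
        rw [hE]; push_cast
        linear_combination (E2 : ℚ) * E1 * E0 * (m : ℚ) ^ 3 * e3
          + (E3 : ℚ) * E1 * E0 * (m : ℚ) ^ 2 * e2 + (E3 : ℚ) * E2 * E0 * (m : ℚ) * e1
          + (E3 : ℚ) * E2 * E1 * e0
      have hjne : ((E2 : ℤ) * E1 * E0 * j3 * m ^ 3 + (E3 : ℤ) * E1 * E0 * j2 * m ^ 2
            + (E3 : ℤ) * E2 * E0 * j1 * m + (E3 : ℤ) * E2 * E1 * j0 : ℤ) ≠ 0 := by
        intro h0
        rw [h0, Int.cast_zero] at hint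
        rcases mul_eq_zero.mp hint with h | h
        · exact hEpos.ne' h
        · exact hne h
      have h1 : (1 : ℚ) ≤ |E * (p3.eval (k : ℚ) * (m : ℚ) ^ 3 + P2.eval (k : ℚ) * (m : ℚ) ^ 2
          + P1.eval (k : ℚ) * (m : ℚ) + P0.eval (k : ℚ))| := by
        rw [hint, ← Int.cast_abs]; exact_mod_cast Int.one_le_abs hjne
      rw [abs_mul, abs_of_pos hEpos] at h1
      have h2 : (k : ℚ) ≤ Ct * E := by
        have h3 := mul_le_mul_of_nonneg_right key hEpos.le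
        have h4 : (k : ℚ) * 1 ≤ (k : ℚ) * (E * |p3.eval (k : ℚ) * (m : ℚ) ^ 3
            + P2.eval (k : ℚ) * (m : ℚ) ^ 2 + P1.eval (k : ℚ) * (m : ℚ) + P0.eval (k : ℚ)|) :=
          mul_le_mul_of_nonneg_left h1 (by linarith)
        linarith
      linarith
    exact hbd k hk4 (hdz (k : ℚ) m hz hPv)

end Fermat.Agent.S52.RungeCore
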